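import Mathlib
import Fermat.Agent.TW.GenG

/-!
# Representations over the dual numbers which are constant on a subgroup up to conjugation
-/

set_option autoImplicit false
set_option linter.style.haveILetI false
set_option linter.unusedSectionVars false
set_option synthInstance.maxHeartbeats 400000

namespace Fermat.Agent.TW

open Matrix IsLocalRing Module Fermat.Agent.DefRing Fermat.Agent Fermat.Agent.CFT Fermat.Agent.CFT.Loc

local notation "M₂" => Matrix (Fin 2) (Fin 2)

section Alg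

variable {k : Type} [Field k]

/-- reduction -/
abbrev mfs (M : M₂ (DualNumber k)) : M₂ k := M.map TrivSqZeroExt.fst

/-- the `ε`-part -/
abbrev msn (M : M₂ (DualNumber k)) : M₂ k := M.map TrivSqZeroExt.snd

theorem mfs_mul (M N : M₂ (DualNumber k)) : mfs (M * N) = mfs M * mfs N := by
  ext i j
  simp [Matrix.mul_apply, Fin.sum_univ_two]

theorem msn_mul (M N : M₂ (DualNumber k)) : msn (M * N) = mfs M * msn N + msn M * mfs N := by
  ext i j
  simp [Matrix.mul_apply, Fin.sum_univ_two]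
  ring

theorem mfs_one : mfs (1 : M₂ (DualNumber k)) = 1 := by
  ext i j
  fin_cases i <;> fin_cases j <;> simp

theorem msn_one : msn (1 : M₂ (DualNumber k)) = 0 := by
  ext i j
  fin_cases i <;> fin_cases j <;> simp

theorem msn_add (M N : M₂ (DualNumber k)) : msn (M + N) = msn M + msn N := by
  ext i j
  simp

theorem mfs_trace (M : M₂ (DualNumber k)) : (mfs M).trace = M.trace.fst := by
  simp [trace_fin_two]

theorem msn_trace (M : M₂ (DualNumber k)) : (msn M).trace = M.trace.snd := by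
  simp [trace_fin_two]

theorem commutator_eq (a b c d x y z w : k) :
    !![a, b; c, d] * !![x, y; z, w] - !![x, y; z, w] * !![a, b; c, d] =
      !![b * z - c * y, (a - d) * y - b * (x - w); (d - a) * z + c * (x - w), c * y - b * z] := by
  rw [Matrix.mul_fin_two, Matrix.mul_fin_two]
  ext i j
  fin_cases i <;> fin_cases j <;> simp <;> ring

/-- the commutator equation -/
theorem exists_commutator {A B : M₂ k} (hns : ∀ c : k, A ≠ c • (1 : M₂ k)) (htr : B.trace = 0)
    (h : (A * B).trace = 0) : ∃ Z : M₂ k, B = A * Z - Z * A := by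
  obtain ⟨a, b, c, d, rfl⟩ : ∃ a b c d : k, A = !![a, b; c, d] :=
    ⟨_, _, _, _, Matrix.eta_fin_two A⟩
  obtain ⟨s, t, u, v, rfl⟩ : ∃ s t u v : k, B = !![s, t; u, v] :=
    ⟨_, _, _, _, Matrix.eta_fin_two B⟩
  rw [Matrix.mul_fin_two, Matrix.trace_fin_two_of] at h
  rw [Matrix.trace_fin_two_of] at htr
  have h11 : v = -s := by linear_combination htr
  subst h11
  by_cases hq : b = 0
  · subst hq
    by_cases hr : c = 0
    · subst hr
      have hd : a - d ≠ 0 := by
        intro h0
        apply hns a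
        have : d = a := (sub_eq_zero.1 h0).symm
        subst this
        ext i j
        fin_cases i <;> fin_cases j <;> simp
      have hs : s = 0 := by
        have : (a - d) * s = 0 := by linear_combination h
        exact (mul_eq_zero.1 this).resolve_left hd
      subst hs
      refine ⟨!![0, t / (a - d); -(u / (a - d)), 0], ?_⟩
      rw [commutator_eq]
      ext i j
      fin_cases i <;> fin_cases j
      · simp
      · simp
        field_simp
      · simp
        field_simp
        ring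
      · simp
    · refine ⟨!![u / c, -(s / c); 0, 0], ?_⟩
      rw [commutator_eq]
      ext i j
      fin_cases i <;> fin_cases j
      · simp
        field_simp
      · simp
        field_simp
        linear_combination h
      · simp
        field_simp
      · simp
        field_simp
  · refine ⟨!![-(t / b), 0; s / b, 0], ?_⟩
    rw [commutator_eq]
    ext i j
    fin_cases i <;> fin_cases j
    · simp
      field_simp
    · simp
      field_simp
    · simp
      field_simp
      linear_combination h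
    · simp
      field_simp

/-- A matrix over the dual numbers with constant trace and determinant whose reduction is not
scalar is conjugate to its reduction. -/
theorem exists_conj_const {M : M₂ (DualNumber k)} (hns : ∀ c : k, mfs M ≠ c • (1 : M₂ k))
    (htr : M.trace.snd = 0) (hdet : M.det.snd = 0) :
    ∃ X X' : M₂ (DualNumber k), X * X' = 1 ∧ X' * X = 1 ∧ msn (X * M * X') = 0 := by
  have h1 : (msn M).trace = 0 := by rw [msn_trace, htr]
  have h2 : (mfs M * msn M).trace = 0 := by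
    rw [det_fin_two] at hdet
    simp only [TrivSqZeroExt.snd_sub, TrivSqZeroExt.snd_mul, smul_eq_mul,
      MulOpposite.smul_eq_mul_unop, MulOpposite.unop_op] at hdet
    rw [trace_fin_two] at h1 ⊢
    simp only [mul_apply, Fin.sum_univ_two, Matrix.map_apply] at h1 ⊢
    linear_combination (M 0 0).fst * h1 + (M 1 1).fst * h1 - hdet
  obtain ⟨Z, hZ⟩ := exists_commutator hns h1 h2
  let X : M₂ (DualNumber k) := 1 + Z.map TrivSqZeroExt.inr
  let X' : M₂ (DualNumber k) := 1 - Z.map TrivSqZeroExt.inr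
  have e0 : mfs (Z.map TrivSqZeroExt.inr : M₂ (DualNumber k)) = 0 := by ext i j; simp
  have e1 : msn (Z.map TrivSqZeroExt.inr : M₂ (DualNumber k)) = Z := by ext i j; simp
  have hZZ : (Z.map TrivSqZeroExt.inr : M₂ (DualNumber k)) * Z.map TrivSqZeroExt.inr = 0 := by
    ext i j : 1
    rw [Matrix.mul_apply]
    apply Finset.sum_eq_zero
    intro a _
    rw [Matrix.map_apply, Matrix.map_apply, TrivSqZeroExt.inr_mul_inr]
  have fX : mfs X = 1 := by
    ext i j
    fin_cases i <;> fin_cases j <;> simp [X]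
  have fX' : mfs X' = 1 := by
    ext i j
    fin_cases i <;> fin_cases j <;> simp [X']
  have sX : msn X = Z := by
    ext i j
    fin_cases i <;> fin_cases j <;> simp [X]
  have sX' : msn X' = -Z := by
    ext i j
    fin_cases i <;> fin_cases j <;> simp [X']
  refine ⟨X, X', ?_, ?_, ?_⟩
  · show (1 + Z.map TrivSqZeroExt.inr) * (1 - Z.map TrivSqZeroExt.inr) = (1 : M₂ (DualNumber k))
    rw [add_mul, one_mul, mul_sub, mul_one, hZZ]
    abel
  · show (1 - Z.map TrivSqZeroExt.inr) * (1 + Z.map TrivSqZeroExt.inr) = (1 : M₂ (DualNumber k))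
    rw [sub_mul, one_mul, mul_add, mul_one, hZZ]
    abel
  · rw [msn_mul, msn_mul, mfs_mul, fX, fX', sX, sX', hZ, one_mul, one_mul, mul_one, mul_neg]
    abel

end Alg

section Const

variable {k : Type} [Field k]

/-- the subgroup of matrices which become constant after conjugation by `X` -/
def constSub (X X' : M₂ (DualNumber k)) (h1 : X * X' = 1) (h2 : X' * X = 1) :
    Subgroup (M₂ (DualNumber k))ˣ where
  carrier := {g | msn (X * (g : M₂ (DualNumber k)) * X') = 0}
  mul_mem' {a b} ha hb := by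
    have e : X * ((a * b : (M₂ (DualNumber k))ˣ) : M₂ (DualNumber k)) * X' =
        (X * (a : M₂ (DualNumber k)) * X') * (X * (b : M₂ (DualNumber k)) * X') := by
      rw [Units.val_mul]
      calc X * ((a : M₂ (DualNumber k)) * b) * X' =
          X * (a : M₂ (DualNumber k)) * 1 * b * X' := by noncomm_ring
        _ = _ := by rw [← h2]; noncomm_ring
    show msn _ = 0
    rw [e, msn_mul, show msn (X * (b : M₂ (DualNumber k)) * X') = 0 from hb,
      show msn (X * (a : M₂ (DualNumber k)) * X') = 0 from ha, mul_zero, zero_mul, add_zero]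
  one_mem' := by
    show msn (X * ((1 : (M₂ (DualNumber k))ˣ) : M₂ (DualNumber k)) * X') = 0
    rw [Units.val_one, mul_one, h1, msn_one]
  inv_mem' {a} ha := by
    have e : (X * (a : M₂ (DualNumber k)) * X') *
        (X * ((a⁻¹ : (M₂ (DualNumber k))ˣ) : M₂ (DualNumber k)) * X') = 1 := by
      calc (X * (a : M₂ (DualNumber k)) * X') *
          (X * ((a⁻¹ : (M₂ (DualNumber k))ˣ) : M₂ (DualNumber k)) * X') =
          X * (a : M₂ (DualNumber k)) * (X' * X) *
            ((a⁻¹ : (M₂ (DualNumber k))ˣ) : M₂ (DualNumber k)) * X' := by noncomm_ring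
        _ = X * ((a : M₂ (DualNumber k)) *
            ((a⁻¹ : (M₂ (DualNumber k))ˣ) : M₂ (DualNumber k))) * X' := by
            rw [h2, mul_one]; noncomm_ring
        _ = 1 := by rw [Units.mul_inv, mul_one, h1]
    have e' : (X * ((a⁻¹ : (M₂ (DualNumber k))ˣ) : M₂ (DualNumber k)) * X') *
        (X * (a : M₂ (DualNumber k)) * X') = 1 := mul_eq_one_comm.1 e
    have h3 := congrArg msn e
    have h4 := congrArg mfs e'
    rw [msn_mul, msn_one, show msn (X * (a : M₂ (DualNumber k)) * X') = 0 from ha, zero_mul,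
      add_zero] at h3
    rw [mfs_mul, mfs_one] at h4
    show msn _ = 0
    calc msn (X * ((a⁻¹ : (M₂ (DualNumber k))ˣ) : M₂ (DualNumber k)) * X') =
        (mfs (X * ((a⁻¹ : (M₂ (DualNumber k))ˣ) : M₂ (DualNumber k)) * X') *
          mfs (X * (a : M₂ (DualNumber k)) * X')) *
          msn (X * ((a⁻¹ : (M₂ (DualNumber k))ˣ) : M₂ (DualNumber k)) * X') := by
          rw [h4, one_mul]
      _ = 0 := by rw [mul_assoc, h3, mul_zero]

/-- `H` is conjugate to a constant map on `D` -/
def ConstOn (H : Γ → M₂ (DualNumber k)) (D : Set Γ) : Prop :=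
  ∃ X X' : M₂ (DualNumber k), X * X' = 1 ∧ X' * X = 1 ∧ ∀ σ ∈ D, msn (X * H σ * X') = 0

/-- constancy on the decomposition groups above `l` from constancy on the generators -/
theorem constOn_of_locGen {l p : ℕ} (hl : l.Prime) (L : LL.LocGen l p)
    (h : Γ →* (M₂ (DualNumber k))ˣ) (hlev : GaloisFactorsThroughFiniteLevel h)
    (hI : ∀ σ ∈ L.P.inertiaSubgroupIn ℚ, ∃ n, h σ ^ p ^ n = 1)
    {X X' : M₂ (DualNumber k)} (h1 : X * X' = 1) (h2 : X' * X = 1)
    (hφ : msn (X * (h L.φ : M₂ (DualNumber k)) * X') = 0)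
    (hτ : msn (X * (h L.τ : M₂ (DualNumber k)) * X') = 0)
    (A : ValuationSubring (AlgebraicClosure ℚ)) (hA : A.LiesOverPrime l) :
    ConstOn (fun σ => (h σ : M₂ (DualNumber k))) (A.decompositionSubgroup ℚ : Set Γ) := by
  obtain ⟨g, rfl⟩ := Frob.exists_smul_eq hl L.hP hA
  refine ⟨X * ((h g)⁻¹ : (M₂ (DualNumber k))ˣ), (h g : M₂ (DualNumber k)) * X', ?_, ?_,
    fun σ hσ => ?_⟩
  · calc X * (((h g)⁻¹ : (M₂ (DualNumber k))ˣ) : M₂ (DualNumber k)) *
        ((h g : M₂ (DualNumber k)) * X') =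
        X * ((((h g)⁻¹ : (M₂ (DualNumber k))ˣ) : M₂ (DualNumber k)) *
          (h g : M₂ (DualNumber k))) * X' := by noncomm_ring
      _ = 1 := by rw [Units.inv_mul, mul_one, h1]
  · calc (h g : M₂ (DualNumber k)) * X' *
        (X * (((h g)⁻¹ : (M₂ (DualNumber k))ˣ) : M₂ (DualNumber k))) =
        (h g : M₂ (DualNumber k)) * (X' * X) *
          (((h g)⁻¹ : (M₂ (DualNumber k))ˣ) : M₂ (DualNumber k)) := by noncomm_ring
      _ = 1 := by rw [h2, mul_one, Units.mul_inv]
  · have hσ' := (Frob.mem_decompositionSubgroup_smul_iff _ _ _).1 hσ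
    have h3 := (L.gen _ h hlev hI).2.2 _ hσ'
    have h4 : h (g⁻¹ * σ * g) ∈ constSub X X' h1 h2 := by
      refine (Subgroup.closure_le _).2 ?_ h3
      rintro x (rfl | rfl)
      · exact hφ
      · exact hτ
    have h5 : msn (X * (h (g⁻¹ * σ * g) : M₂ (DualNumber k)) * X') = 0 := h4
    rw [map_mul, map_mul, map_inv] at h5
    rw [Units.val_mul, Units.val_mul] at h5
    rw [← h5]
    congr 1
    noncomm_ring

end Const

section Tangent

variable {𝒪 : Type} [CommRing 𝒪] [IsDomain 𝒪] [IsDiscreteValuationRing 𝒪]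
    [IsAdicComplete (maximalIdeal 𝒪) 𝒪] [Finite (ResidueField 𝒪)]
  {ρbar : ResidualGaloisRep (ResidueField 𝒪)}
  {𝒟 : ∀ ⦃A : Type⦄ [CommRing A] [IsLocalRing A] [Algebra 𝒪 A], GaloisRepAdic A → Prop}
  {DQ : GaloisRep.DeformationRingData 𝒪 ρbar 𝒟}
  {rb : Γ →* M₂ (ResidueField 𝒪)} {r r' : Γ → M₂ DQ.R}
  {l : Module.Dual (ResidueField DQ.R) (CotangentSpace DQ.R)}

theorem mfs_thetaHom (hr : NormReal DQ rb r) (hl : l ∈ relTangent 𝒪 DQ.R) (σ : Γ) :
    mfs ((r σ).map (thetaHom DQ hl)) = rb σ := by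
  rw [← hr.red' σ]
  ext i j
  show (thetaHom DQ hl (r σ i j)).fst = (iota DQ).symm (residue DQ.R (r σ i j))
  rw [thetaHom_apply]
  simp

theorem msn_thetaHom (hr : NormReal DQ rb r) (hl : l ∈ relTangent 𝒪 DQ.R) (σ : Γ) :
    msn ((r σ).map (thetaHom DQ hl)) = kcoc DQ r l σ * rb σ := by
  rw [kcoc_mul_self hr]
  ext i j
  exact thetaHom_snd DQ hl (r σ i j)

/-- transport of the conjugating matrices between two realisations -/
theorem exists_transport (hr : Realizes DQ.ρ r) (hr' : Realizes DQ.ρ r')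
    (hl : l ∈ relTangent 𝒪 DQ.R) {X X' : M₂ (DualNumber (ResidueField 𝒪))} (h1 : X * X' = 1)
    (h2 : X' * X = 1) : ∃ Y Y' : M₂ (DualNumber (ResidueField 𝒪)), Y * Y' = 1 ∧ Y' * Y = 1 ∧
      ∀ σ, Y * (r σ).map (thetaHom DQ hl) * Y' = X * (r' σ).map (thetaHom DQ hl) * X' := by
  obtain ⟨P, hP, hPr⟩ := hr.exists_conj hr'
  let θ : DQ.R →+* DualNumber (ResidueField 𝒪) := (thetaHom DQ hl : DQ.R →+* _)
  have e1 : P.map θ * (P⁻¹).map θ = 1 := by
    rw [← Matrix.map_mul, Matrix.mul_nonsing_inv _ hP]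
    exact Matrix.map_one _ (map_zero _) (map_one _)
  have e2 : (P⁻¹).map θ * P.map θ = 1 := by
    rw [← Matrix.map_mul, Matrix.nonsing_inv_mul _ hP]
    exact Matrix.map_one _ (map_zero _) (map_one _)
  refine ⟨X * (P⁻¹).map θ, P.map θ * X', ?_, ?_, fun σ => ?_⟩
  · calc X * (P⁻¹).map θ * (P.map θ * X') = X * ((P⁻¹).map θ * P.map θ) * X' := by noncomm_ring
      _ = 1 := by rw [e2, mul_one, h1]
  · calc P.map θ * X' * (X * (P⁻¹).map θ) = P.map θ * (X' * X) * (P⁻¹).map θ := by noncomm_ring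
      _ = 1 := by rw [h2, mul_one, e1]
  · have e3 : P.map θ * (r' σ).map θ = (r σ).map θ * P.map θ := by
      rw [← Matrix.map_mul, ← Matrix.map_mul, hPr]
    calc X * (P⁻¹).map θ * (r σ).map θ * (P.map θ * X') =
        X * (P⁻¹).map θ * ((r σ).map θ * P.map θ) * X' := by noncomm_ring
      _ = X * ((P⁻¹).map θ * P.map θ) * (r' σ).map θ * X' := by rw [← e3]; noncomm_ring
      _ = _ := by rw [e2, mul_one]; rfl

/-- the basic computation -/
theorem exists_m {Y Y' : M₂ (DualNumber (ResidueField 𝒪))} (h1 : Y * Y' = 1) (h2 : Y' * Y = 1) :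
    ∃ m : M₂ (ResidueField 𝒪), mfs Y * mfs Y' = 1 ∧ mfs Y' * mfs Y = 1 ∧
      ∀ H : M₂ (DualNumber (ResidueField 𝒪)), msn (Y * H * Y') =
        mfs Y * (msn H - (mfs H * m - m * mfs H)) * mfs Y' := by
  have f1 : mfs Y * mfs Y' = 1 := by rw [← mfs_mul, h1, mfs_one]
  have f2 : mfs Y' * mfs Y = 1 := by rw [← mfs_mul, h2, mfs_one]
  have s1 : mfs Y * msn Y' + msn Y * mfs Y' = 0 := by rw [← msn_mul, h1, msn_one]
  refine ⟨mfs Y' * msn Y, f1, f2, fun H => ?_⟩
  have e1 : msn Y = mfs Y * (mfs Y' * msn Y) := by rw [← mul_assoc, f1, one_mul]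
  have e2 : msn Y' = -(mfs Y' * msn Y * mfs Y') := by
    calc msn Y' = (mfs Y' * mfs Y) * msn Y' := by rw [f2, one_mul]
      _ = mfs Y' * (mfs Y * msn Y' + msn Y * mfs Y') - mfs Y' * msn Y * mfs Y' := by noncomm_ring
      _ = _ := by rw [s1]; noncomm_ring
  rw [msn_mul, msn_mul, mfs_mul]
  calc mfs Y * mfs H * msn Y' + (mfs Y * msn H + msn Y * mfs H) * mfs Y' =
      mfs Y * mfs H * (-(mfs Y' * msn Y * mfs Y')) + (mfs Y * msn H +
        mfs Y * (mfs Y' * msn Y) * mfs H) * mfs Y' := by rw [← e1, ← e2]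
    _ = _ := by noncomm_ring

/-- **constant on `D` up to conjugation implies that the cocycle is a coboundary on `D`** -/
theorem kcoc_coboundary_of_constOn (hr : NormReal DQ rb r) (hr' : Realizes DQ.ρ r')
    (hl : l ∈ relTangent 𝒪 DQ.R) {D : Set Γ}
    (h : ConstOn (fun σ => (r' σ).map (thetaHom DQ hl)) D) :
    ∃ m : M₂ (ResidueField 𝒪), ∀ σ ∈ D, kcoc DQ r l σ = rb σ * m * rb σ⁻¹ - m := by
  obtain ⟨X, X', h1, h2, h3⟩ := h
  obtain ⟨Y, Y', h4, h5, h6⟩ := exists_transport hr.real hr' hl h1 h2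
  obtain ⟨m, f1, f2, h7⟩ := exists_m h4 h5
  refine ⟨m, fun σ hσ => ?_⟩
  have h8 : msn (Y * (r σ).map (thetaHom DQ hl) * Y') = 0 := by rw [h6]; exact h3 σ hσ
  rw [h7, mfs_thetaHom hr hl, msn_thetaHom hr hl] at h8
  have h9 : kcoc DQ r l σ * rb σ - (rb σ * m - m * rb σ) = 0 := by
    calc _ = (mfs Y' * mfs Y) * (kcoc DQ r l σ * rb σ - (rb σ * m - m * rb σ)) *
        (mfs Y' * mfs Y) := by rw [f2, one_mul, mul_one]
      _ = mfs Y' * (mfs Y * (kcoc DQ r l σ * rb σ - (rb σ * m - m * rb σ)) * mfs Y') *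
          mfs Y := by noncomm_ring
      _ = 0 := by rw [h8, mul_zero, zero_mul]
  have h10 : rb σ * rb σ⁻¹ = 1 := by rw [← map_mul, mul_inv_cancel, map_one]
  calc kcoc DQ r l σ = (kcoc DQ r l σ * rb σ - (rb σ * m - m * rb σ)) * rb σ⁻¹ +
        (rb σ * m * rb σ⁻¹ - m * (rb σ * rb σ⁻¹)) +
        (kcoc DQ r l σ - kcoc DQ r l σ * (rb σ * rb σ⁻¹)) := by noncomm_ring
    _ = _ := by rw [h9, h10]; noncomm_ring

end Tangent

end Fermat.Agent.TW
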