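import Mathlib
import Fermat.Agent.TW.MainT

/-!
# The numerical bound for the Selmer group, with slack
-/

set_option autoImplicit false
set_option linter.style.haveILetI false

namespace Fermat.Agent.TW

open Matrix Module Fermat.Agent.DefRing Fermat.Agent Fermat.Agent.CFT

local notation "M₂" => Matrix (Fin 2) (Fin 2)

section

variable {p : ℕ} [Fact p.Prime] {k : Type} [Field k] [Algebra (ZMod p) k] [Finite k]
variable {r : Γ →* M₂ k}

/-- **The bound for the Selmer group**, with slack `c`. -/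
theorem finrank_sel_le_slack [DecidableEq Nat.Primes] (G : GWData p (adRep (p := p) r 1)) {n : ℕ}
    {e c : ℕ}
    (hT : TWHyp r (muSub (p ^ (n + 1))))
    (hdet : ∀ σ, (r σ).det = algebraMap (ZMod p) k (ExtCitation.cycloChar p σ : ZMod p))
    {S Q : Finset Nat.Primes} (hpS : ExtCitation.pPrime p ∈ S)
    (hs : Smooth (sLevels S) (adRep (p := p) r 1))
    {L : ∀ v : Nat.Primes, Submodule (ZMod p) (H1loc (adRep (p := p) r 1) v)}
    (hloc : ∑ v ∈ S, finrank (ZMod p) (L v) + e ≤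
      ∑ v ∈ S, h0loc (adRep (p := p) r 1) v + (1 + c) * finrank (ZMod p) k)
    (hQS : Disjoint S Q)
    (hQ : ∀ v ∈ Q, IsTWPrime p n r (v : ℕ))
    (hdual : Sel (S ∪ Q) (cartier p (adRep (p := p) r 1))
      (fun v => (L v).dualAnnihilator.comap (G.B v).flip) = ⊥) :
    finrank (ZMod p) (Sel (S ∪ Q) (adRep (p := p) r 1) L) + e ≤
      (Q.card + c) * finrank (ZMod p) k := by
  have hs' : Smooth (sLevels (S ∪ Q)) (adRep (p := p) r 1) := fun v => by
    obtain ⟨H, hH, h⟩ := hs v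
    exact ⟨H, sLevels_mono Finset.subset_union_left hH, h⟩
  have hgw := G.gw (S ∪ Q) (Finset.mem_union_left _ hpS) hs' L
  rw [hdual, finrank_bot, invOn_univ_eq_bot hT, finrank_bot, Finset.sum_union hQS,
    Finset.sum_union hQS] at hgw
  have h1 := le_finrank_invOn_conj (p := p) (r := r) hdet
  have h2 : ∑ v ∈ Q, finrank (ZMod p) (L v) ≤
      ∑ v ∈ Q, h0loc (adRep (p := p) r 1) v + Q.card * finrank (ZMod p) k := by
    rw [← smul_eq_mul, ← Finset.sum_const, ← Finset.sum_add_distrib]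
    refine Finset.sum_le_sum fun v hv => ?_
    have hvp : v ≠ ExtCitation.pPrime p := by
      rintro rfl
      exact (Finset.disjoint_left.1 hQS) hpS hv
    have := G.finite_loc v
    exact ((Submodule.finrank_le (L v)).trans (G.euler v hvp)).trans
      (Nat.add_le_add_left (h0loc_cartier_le hT.two_ne (hQ v hv)) _)
  rw [add_mul, one_mul] at hloc
  rw [add_mul]
  omega

/-- **Summary**: Taylor-Wiles primes making the Selmer group small; the number `R` of primes can
be any large number. -/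
theorem exists_twPrimes_sel_slack [DecidableEq Nat.Primes] (G : GWData p (adRep (p := p) r 1))
    (hp2 : p ≠ 2)
    (hr : ∃ L : IntermediateField ℚ (AlgebraicClosure ℚ), FiniteDimensional ℚ L ∧
      ∀ σ : Γ, (∀ x ∈ L, σ x = x) → r σ = 1)
    (hT : ∀ n, TWHyp r (muSub (p ^ (n + 1))))
    (hdet : ∀ σ, (r σ).det = algebraMap (ZMod p) k (ExtCitation.cycloChar p σ : ZMod p))
    {S : Finset Nat.Primes} (hpS : ExtCitation.pPrime p ∈ S)
    (hs : Smooth (sLevels S) (adRep (p := p) r 1))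
    (hs' : Smooth (sLevels S) (cartier p (adRep (p := p) r 1)))
    {L : ∀ v : Nat.Primes, Submodule (ZMod p) (H1loc (adRep (p := p) r 1) v)}
    (hL : ∀ v, v ∉ S → L v = ⊤) {e c : ℕ}
    (hloc : ∑ v ∈ S, finrank (ZMod p) (L v) + e ≤
      ∑ v ∈ S, h0loc (adRep (p := p) r 1) v + (1 + c) * finrank (ZMod p) k) :
    ∃ R₀ : ℕ, ∀ R, R₀ ≤ R → ∀ (n : ℕ) (X : Finset ℕ), ∃ Q : Finset Nat.Primes, Q.card = R ∧
      (∀ v ∈ Q, IsTWPrime p n r (v : ℕ) ∧ (v : ℕ) ∉ X) ∧
      finrank (ZMod p) (Sel (S ∪ Q) (adRep (p := p) r 1) L) + e ≤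
        (R + c) * finrank (ZMod p) k := by
  refine ⟨finrank (ZMod p) (Sel S (cartier p (adRep (p := p) r 1)) (perp G L)),
    fun R hR n X => ?_⟩
  obtain ⟨Q, hQR, hQ, hW⟩ := exists_kill_all (S := S) (n := n)
    (M := perp G L) hp2 hr (hT n)
    (G.finite' S hpS hs) hR (X ∪ S.image (fun v : Nat.Primes => (v : ℕ)))
  have hdisj : Disjoint S Q := by
    rw [Finset.disjoint_left]
    intro v hv hvQ
    exact (hQ v hvQ).2 (Finset.mem_union_right _
      (Finset.mem_image_of_mem (fun v : Nat.Primes => (v : ℕ)) hv))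
  have hbot := sel_perp_eq_bot G hs' hL hdisj hW
  refine ⟨Q, hQR, fun v hv => ⟨(hQ v hv).1, fun h => (hQ v hv).2 (Finset.mem_union_left _ h)⟩, ?_⟩
  have := finrank_sel_le_slack G (hT n) hdet hpS hs hloc hdisj (fun v hv => (hQ v hv).1) hbot
  rw [hQR] at this
  exact this

theorem sum_locCondW_le [DecidableEq Nat.Primes] {S T : Finset Nat.Primes}
    (hpS : ExtCitation.pPrime p ∈ S) (hST : Disjoint S T)
    (hs : Smooth (sLevels S) (adRep (p := p) r 1)) (w : Nat.Primes → ℕ)
    (hw : ∀ v ∈ T, w v * finrank (ZMod p) k ≤ h0loc (adRep (p := p) r 1) v)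
    {Lp : Submodule (ZMod p) (H1loc (adRep (p := p) r 1) (ExtCitation.pPrime p))} {wp c : ℕ}
    (hLp : finrank (ZMod p) Lp + wp * finrank (ZMod p) k ≤
      h0loc (adRep (p := p) r 1) (ExtCitation.pPrime p) + (1 + c) * finrank (ZMod p) k) :
    ∑ v ∈ S ∪ T, finrank (ZMod p) (locCondT S T Lp v) +
      (∑ v ∈ T, w v + wp) * finrank (ZMod p) k ≤
      ∑ v ∈ S ∪ T, h0loc (adRep (p := p) r 1) v + (1 + c) * finrank (ZMod p) k := by
  rw [Finset.sum_union hST, Finset.sum_union hST, ← Finset.add_sum_erase S _ hpS,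
    ← Finset.add_sum_erase S _ hpS, locCondT_p]
  have h1 : ∑ v ∈ S.erase (ExtCitation.pPrime p), finrank (ZMod p) (locCondT S T Lp v) ≤
      ∑ v ∈ S.erase (ExtCitation.pPrime p), h0loc (adRep (p := p) r 1) v := by
    refine Finset.sum_le_sum fun v hv => ?_
    rw [locCondT_ne S T Lp (Finset.ne_of_mem_erase hv), if_pos (Finset.mem_of_mem_erase hv)]
    exact finrank_urCls_locRep_le hs v
  have h2 : ∑ v ∈ T, finrank (ZMod p) (locCondT S T Lp v) = 0 := by
    refine Finset.sum_eq_zero fun v hv => ?_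
    have hvp : v ≠ ExtCitation.pPrime p := by
      rintro rfl
      exact (Finset.disjoint_left.1 hST) hpS hv
    rw [locCondT_ne S T Lp hvp, if_neg (fun h => (Finset.disjoint_left.1 hST) h hv), if_pos hv,
      finrank_bot]
  have h3 : (∑ v ∈ T, w v) * finrank (ZMod p) k ≤ ∑ v ∈ T, h0loc (adRep (p := p) r 1) v := by
    rw [Finset.sum_mul]
    exact Finset.sum_le_sum hw
  rw [add_mul (∑ v ∈ T, w v)]
  omega

end

end Fermat.Agent.TW
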