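import Mathlib
import Fermat.Agent.GenW.Dual
import Fermat.Agent.GenW.Sel

/-!
# Local classes of tangent vectors, in terms of the representation over the dual numbers
-/

set_option autoImplicit false
set_option linter.style.haveILetI false
set_option linter.unusedSectionVars false
set_option synthInstance.maxHeartbeats 400000
set_option maxHeartbeats 1000000

namespace Fermat.Agent.TW

open Matrix IsLocalRing Module Fermat.Agent.DefRing Fermat.Agent Fermat.Agent.CFT Fermat.Agent.CFT.Loc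

local notation "M₂" => Matrix (Fin 2) (Fin 2)

/-- `H` is strict ordinary at the place `P` after conjugation, the unramified quotient being
constant -/
def OrdOn {k : Type} [Field k] (H : Γ → M₂ (DualNumber k))
    (P : ValuationSubring (AlgebraicClosure ℚ)) : Prop :=
  ∃ X X' : M₂ (DualNumber k), X * X' = 1 ∧ X' * X = 1 ∧
    (∀ σ ∈ P.decompositionSubgroup ℚ, (X * H σ * X') 1 0 = 0 ∧
      ((X * H σ * X') 1 1).snd = 0) ∧
    ∀ σ ∈ P.inertiaSubgroupIn ℚ, ((X * H σ * X') 1 1).fst = 1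

section

variable {p : ℕ} [Fact p.Prime]
variable {𝒪 : Type} [CommRing 𝒪] [IsDomain 𝒪] [IsDiscreteValuationRing 𝒪]
  [IsAdicComplete (maximalIdeal 𝒪) 𝒪] [Finite (ResidueField 𝒪)] [Algebra (ZMod p) (ResidueField 𝒪)]
  {ρbar : ResidualGaloisRep (ResidueField 𝒪)}
  {𝒟 : ∀ ⦃A : Type⦄ [CommRing A] [IsLocalRing A] [Algebra 𝒪 A], GaloisRepAdic A → Prop}
  {DQ : GaloisRep.DeformationRingData 𝒪 ρbar 𝒟}
  {rb : Γ →* M₂ (ResidueField 𝒪)} {r r' : Γ → M₂ DQ.R}

/-- the local class vanishes if the representation over the dual numbers is constant on the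
decomposition group up to conjugation -/
theorem resv_eq_zero_of_constOn {S : Finset Nat.Primes} (h : TanHyp (p := p) DQ rb r S)
    (hr' : Realizes DQ.ρ r') (l : relTangent 𝒪 DQ.R) (hp2 : p ≠ 2) {v : Nat.Primes}
    (hc : ConstOn (fun σ => (r' σ).map (thetaHom DQ l.2))
      ((padicPlace (v : ℕ)).decompositionSubgroup ℚ : Set Γ)) :
    resv S (adRep (p := p) rb 1) v (h.cls l) = 0 := by
  obtain ⟨m, hm⟩ := kcoc_coboundary_of_constOn h.norm hr' l.2 hc
  obtain ⟨m', hm'⟩ := exists_traceless (two_ne_res (p := p) hp2) rb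
    (fun τ : GalLoc (v : ℕ) => localGaloisToGlobal v τ) m
  obtain ⟨hZ, hres⟩ := resv_mk S (adRep (p := p) rb 1) v (h.coc l)
  have e1 : resv S (adRep (p := p) rb 1) v (h.cls l) = _ := hres
  rw [e1, H1.mk_eq_zero]
  refine mem_B1.2 ⟨m', fun g => ?_⟩
  apply Subtype.ext
  have hmemD : localGaloisToGlobal (v : ℕ) g ∈ (padicPlace (v : ℕ)).decompositionSubgroup ℚ := by
    rw [← range_localGaloisToGlobal]; exact ⟨g, rfl⟩
  show kcoc DQ r l (localGaloisToGlobal v g) = _
  rw [hm _ hmemD, ← map_inv, map_inv, ← hm' g]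
  rw [AddSubgroupClass.coe_sub]
  exact congrArg (· - (m' : M₂ (ResidueField 𝒪))) (adRep_one_apply rb _ m').symm

/-- **at `p`, ordinary case** -/
theorem exists_coboundary_of_ordOn {S : Finset Nat.Primes} (h : TanHyp (p := p) DQ rb r S)
    (hr' : Realizes DQ.ρ r') (l : relTangent 𝒪 DQ.R) (hp2 : p ≠ 2)
    (hordb : OrdMat p (padicPlace p) rb)
    (ho : OrdOn (fun σ => (r' σ).map (thetaHom DQ l.2)) (padicPlace p)) :
    ∃ m : M₂ (ResidueField 𝒪), ∀ σ ∈ (padicPlace p).decompositionSubgroup ℚ,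
      (kcoc DQ r l σ - (rb σ * m * rb σ⁻¹ - m)) 0 0 = 0 ∧
      (kcoc DQ r l σ - (rb σ * m * rb σ⁻¹ - m)) 1 0 = 0 := by
  have hp : p.Prime := Fact.out
  obtain ⟨X, X', h1, h2, hD, hI⟩ := ho
  obtain ⟨Y, Y', h4, h5, h6⟩ := exists_transport h.norm.real hr' l.2 h1 h2
  obtain ⟨m, f1, f2, h7⟩ := exists_m h4 h5
  have hmemD : ∀ τ : GalLoc p, localGaloisToGlobal p τ ∈
      (padicPlace p).decompositionSubgroup ℚ := fun τ => by
    rw [← range_localGaloisToGlobal]; exact ⟨τ, rfl⟩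
  haveI : CharP (ResidueField 𝒪) p := charP_res (𝒪 := 𝒪) p
  -- the residual matrices
  have hfs : ∀ σ, mfs (X * (r' σ).map (thetaHom DQ l.2) * X') = mfs Y * rb σ * mfs Y' := by
    intro σ
    rw [← h6, mfs_mul, mfs_mul, mfs_thetaHom h.norm l.2]
  have hB10 : ∀ σ ∈ (padicPlace p).decompositionSubgroup ℚ, (mfs Y * rb σ * mfs Y') 1 0 = 0 := by
    intro σ hσ
    rw [← hfs]
    show TrivSqZeroExt.fst ((X * (r' σ).map (thetaHom DQ l.2) * X') 1 0) = 0
    rw [(hD σ hσ).1]
    rfl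
  -- `Y` is residually upper triangular
  have hY10 : mfs Y 1 0 = 0 := by
    obtain ⟨τ, hτ, hτχ⟩ := exists_inertia_cyclo_ne (p := p) hp2
    set σ := localGaloisToGlobal p τ with hσ
    have hσI : σ ∈ (padicPlace p).inertiaSubgroupIn ℚ :=
      (localGaloisToGlobal_mem_inertia_iff p τ).2 hτ
    have e1 : (mfs Y * rb σ * mfs Y') 1 1 = 1 := by
      rw [← hfs]
      exact hI σ hσI
    have e2 := hB10 σ (hmemD τ)
    have e3 : mfs Y * rb σ = (mfs Y * rb σ * mfs Y') * mfs Y := by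
      rw [mul_assoc (mfs Y * rb σ), f2, mul_one]
    have e4 := congrFun (congrFun e3 1) 0
    have e4' : mfs Y 1 0 * rb σ 0 0 + mfs Y 1 1 * rb σ 1 0 =
        (mfs Y * rb σ * mfs Y') 1 0 * mfs Y 0 0 + (mfs Y * rb σ * mfs Y') 1 1 * mfs Y 1 0 := by
      have a1 := Matrix.mul_apply (M := mfs Y) (N := rb σ) (i := 1) (k := 0)
      have a2 := Matrix.mul_apply (M := mfs Y * rb σ * mfs Y') (N := mfs Y) (i := 1) (k := 0)
      rw [Fin.sum_univ_two] at a1 a2
      rw [← a1, ← a2]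
      exact e4
    rw [e1, e2, hordb.dec σ (hmemD τ), mul_zero, add_zero, zero_mul, zero_add, one_mul] at e4'
    have e5 := hordb.cyc σ (hmemD τ) 1 ((locχ p τ : ZMod p).val) (fun μ hμ => by
      rw [pow_one] at hμ
      exact CycChar.apply_eq_pow_cycloChar p _ hμ)
    have hpk : (p : ResidueField 𝒪) = 0 := CharP.cast_eq_zero _ _
    rw [pow_one, hpk, Ideal.span_singleton_eq_bot.2 rfl, Ideal.mem_bot, sub_eq_zero,
      hordb.ine σ hσI, mul_one] at e5
    have e6 : mfs Y 1 0 * ((((locχ p τ : ZMod p).val : ℕ) : ResidueField 𝒪) - 1) = 0 := by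
      rw [← e5]
      linear_combination e4'
    refine (mul_eq_zero.1 e6).resolve_right ?_
    intro h8
    apply hτχ
    have h9 : ((((locχ p τ : ZMod p).val : ℕ)) : ResidueField 𝒪) = ((1 : ℕ) : ResidueField 𝒪) := by
      rw [Nat.cast_one]; exact sub_eq_zero.1 h8
    rw [CharP.natCast_eq_natCast (ResidueField 𝒪) p] at h9
    rw [← ZMod.natCast_zmod_val (locχ p τ : ZMod p), ← Nat.cast_one, ZMod.natCast_eq_natCast_iff]
    exact h9
  have hYdet : mfs Y 0 0 ≠ 0 ∧ mfs Y 1 1 ≠ 0 := by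
    have h8 : (mfs Y).det * (mfs Y').det = 1 := by rw [← det_mul, f1, det_one]
    rw [det_fin_two (mfs Y), hY10, mul_zero, sub_zero] at h8
    constructor
    · intro h9; rw [h9] at h8; simp at h8
    · intro h9; rw [h9] at h8; simp at h8
  have hY'10 : mfs Y' 1 0 = 0 := by
    have := congrFun (congrFun f1 1) 0
    rw [mul_apply, Fin.sum_univ_two, hY10, zero_mul, zero_add] at this
    have h8 : mfs Y 1 1 * mfs Y' 1 0 = 0 := by rw [this]; simp
    exact (mul_eq_zero.1 h8).resolve_left hYdet.2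
  have hY'00 : mfs Y' 0 0 ≠ 0 := by
    intro h8
    have := congrFun (congrFun f2 0) 0
    rw [mul_apply, Fin.sum_univ_two, h8, hY10, zero_mul, mul_zero, add_zero] at this
    simp at this
  have hY'11 : mfs Y' 1 1 ≠ 0 := by
    intro h8
    have := congrFun (congrFun f1 1) 1
    rw [mul_apply, Fin.sum_univ_two, h8, hY10, zero_mul, mul_zero, add_zero] at this
    simp at this
  refine ⟨m, fun σ hσ => ?_⟩
  have hσi : σ⁻¹ ∈ (padicPlace p).decompositionSubgroup ℚ := inv_mem hσ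
  -- the matrix `E`
  set E : M₂ (ResidueField 𝒪) := kcoc DQ r l σ * rb σ - (rb σ * m - m * rb σ) with hE
  have hsn : msn (X * (r' σ).map (thetaHom DQ l.2) * X') = mfs Y * E * mfs Y' := by
    rw [← h6, h7, mfs_thetaHom h.norm l.2, msn_thetaHom h.norm l.2]
  have s10 : (mfs Y * E * mfs Y') 1 0 = 0 := by
    rw [← hsn]
    show TrivSqZeroExt.snd ((X * (r' σ).map (thetaHom DQ l.2) * X') 1 0) = 0
    rw [(hD σ hσ).1]
    rfl
  have s11 : (mfs Y * E * mfs Y') 1 1 = 0 := by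
    rw [← hsn]
    exact (hD σ hσ).2
  have hE10 : E 1 0 = 0 := by
    simp only [mul_apply, Fin.sum_univ_two, hY10, hY'10, zero_mul, zero_add, mul_zero,
      add_zero] at s10
    exact (mul_eq_zero.1 ((mul_eq_zero.1 s10).resolve_right hY'00)).resolve_left hYdet.2
  have hE11 : E 1 1 = 0 := by
    simp only [mul_apply, Fin.sum_univ_two, hY10, zero_mul, zero_add, hE10, mul_zero] at s11
    exact (mul_eq_zero.1 ((mul_eq_zero.1 s11).resolve_right hY'11)).resolve_left hYdet.2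
  -- conclusion
  have hbb : rb σ * rb σ⁻¹ = 1 := by rw [← _root_.map_mul, mul_inv_cancel, _root_.map_one]
  have hfin : kcoc DQ r l σ - (rb σ * m * rb σ⁻¹ - m) = E * rb σ⁻¹ := by
    calc kcoc DQ r l σ - (rb σ * m * rb σ⁻¹ - m)
        = kcoc DQ r l σ * (rb σ * rb σ⁻¹) - (rb σ * m * rb σ⁻¹ - m * (rb σ * rb σ⁻¹)) := by
          rw [hbb, mul_one, mul_one]
      _ = E * rb σ⁻¹ := by rw [hE]; noncomm_ring
  have hb10 : rb σ⁻¹ 1 0 = 0 := hordb.dec _ hσi
  have c10 : (E * rb σ⁻¹) 1 0 = 0 := by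
    rw [mul_apply, Fin.sum_univ_two, hE10, hE11, zero_mul, zero_mul, add_zero]
  have c11 : (E * rb σ⁻¹) 1 1 = 0 := by
    rw [mul_apply, Fin.sum_univ_two, hE10, hE11, zero_mul, zero_mul, add_zero]
  have ctr : (E * rb σ⁻¹).trace = 0 := by
    rw [← hfin, Matrix.trace_sub, Matrix.trace_sub,
      kcoc_trace h.pmem h.det h.norm l.2 h.detne σ]
    have : (rb σ * m * rb σ⁻¹).trace = m.trace := by
      rw [Matrix.trace_mul_comm, ← mul_assoc, ← _root_.map_mul, inv_mul_cancel, _root_.map_one,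
        one_mul]
    rw [this]; ring
  have c00 : (E * rb σ⁻¹) 0 0 = 0 := by
    rw [trace_fin_two, c11, add_zero] at ctr
    exact ctr
  rw [hfin]
  exact ⟨c00, c10⟩

end

end Fermat.Agent.TW
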