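import Mathlib
import Fermat.Agent.GenW.Local

/-!
# Generators of deformation rings with weights: the core theorem
-/

set_option autoImplicit false
set_option linter.style.haveILetI false
set_option linter.unusedSectionVars false
set_option synthInstance.maxHeartbeats 400000
set_option maxHeartbeats 1000000

namespace Fermat.Agent.TW

open Matrix IsLocalRing Module Fermat.Agent.DefRing Fermat.Agent Fermat.Agent.CFT Fermat.Agent.CFT.Loc

local notation "M₂" => Matrix (Fin 2) (Fin 2)

section Loc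

variable {p : ℕ} [Fact p.Prime] {k : Type} [Field k] [Finite k] [Algebra (ZMod p) k]
variable {r : Γ →* M₂ k}

/-- local invariants at a prime where the image is nonscalar -/
theorem finrank_le_h0loc {v : Nat.Primes} {A : M₂ k} (h2 : (2 : k) ≠ 0)
    (hns : ∀ c : k, A ≠ c • (1 : M₂ k))
    (hcomm : ∀ τ : GalLoc (v : ℕ), r (localGaloisToGlobal v τ) * A =
      A * r (localGaloisToGlobal v τ)) :
    finrank (ZMod p) k ≤ h0loc (adRep (p := p) r 1) v := by
  set B : M₂ k := A - (A.trace / 2) • (1 : M₂ k) with hB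
  have htr : B.trace = 0 := by
    rw [hB, Matrix.trace_sub, Matrix.trace_smul, Matrix.trace_one]
    simp
    field_simp
    ring
  have hB0 : B ≠ 0 := by
    intro h
    exact hns _ (sub_eq_zero.1 h)
  have hBc : ∀ τ : GalLoc (v : ℕ), r (localGaloisToGlobal v τ) * B *
      r (localGaloisToGlobal v τ)⁻¹ = B := by
    intro τ
    have h1 : r (localGaloisToGlobal (v : ℕ) τ) * r (localGaloisToGlobal (v : ℕ) τ)⁻¹ = 1 := by
      rw [← map_mul, mul_inv_cancel, map_one]
    have h3 : r (localGaloisToGlobal v τ) * B = B * r (localGaloisToGlobal v τ) := by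
      rw [hB, mul_sub, sub_mul, hcomm, mul_smul_comm, smul_mul_assoc, mul_one, one_mul]
    rw [h3, mul_assoc, h1, mul_one]
  let f : k →ₗ[ZMod p] (invOn (adRep (p := p) r 1) (Set.range (localGaloisToGlobal (v : ℕ)))) :=
    { toFun := fun a => ⟨⟨a • B, by rw [mem_sl, Matrix.trace_smul, htr, smul_zero]⟩, by
        rintro _ ⟨τ, rfl⟩
        apply Subtype.ext
        rw [adRep_one_apply, mul_smul_comm, smul_mul_assoc, hBc]⟩
      map_add' := fun a b => Subtype.ext (Subtype.ext (add_smul a b B))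
      map_smul' := fun a b => Subtype.ext (Subtype.ext (by
        show (a • b) • B = a • (b • B)
        rw [smul_assoc])) }
  have hf : Function.Injective f := by
    rw [← LinearMap.ker_eq_bot, LinearMap.ker_eq_bot']
    intro a ha
    have h1 : a • B = 0 := congrArg (fun x => ((x : sl k) : M₂ k)) (congrArg Subtype.val ha)
    exact (smul_eq_zero.1 h1).resolve_right hB0
  exact LinearMap.finrank_le_finrank_of_injective hf

end Loc

section

variable {p : ℕ} [Fact p.Prime]
variable {𝒪 : Type} [CommRing 𝒪] [IsDomain 𝒪] [IsDiscreteValuationRing 𝒪]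
  [IsAdicComplete (maximalIdeal 𝒪) 𝒪] [Finite (ResidueField 𝒪)] [Algebra (ZMod p) (ResidueField 𝒪)]
  {ρbar : ResidualGaloisRep (ResidueField 𝒪)}

/-- **Core theorem**: Taylor-Wiles primes and the tangent space of deformation rings, with
weights. -/
theorem main_of_local_W (hp2 : p ≠ 2) (hp𝒪 : (p : 𝒪) ∈ maximalIdeal 𝒪)
    (habs : ρbar.IsAbsolutelyIrreducible)
    (hdet : (GaloisRepAdic.ofResidualGaloisRep ρbar).DetIsCyclotomic p)
    (hsplit : ∀ σ : AlgebraicClosure ℚ ≃ₐ[ℚ] AlgebraicClosure ℚ,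
      ∃ α β : ResidueField 𝒪, LinearMap.charpoly (ρbar.ρ σ) =
        (Polynomial.X - Polynomial.C α) * (Polynomial.X - Polynomial.C β))
    (hTW : ∀ (K : Type) [Field K] [Algebra (ResidueField 𝒪) K]
      (G : Subgroup (AlgebraicClosure ℚ ≃ₐ[ℚ] AlgebraicClosure ℚ)), G.index = 2 →
      ∀ V : Submodule K (ρbar.baseChange K).V,
        (∀ σ ∈ G, ∀ x ∈ V, (ρbar.baseChange K).ρ σ x ∈ V) → V = ⊥ ∨ V = ⊤)
    (Smin T : Finset ℕ) (hpSmin : p ∈ Smin) (hST : Disjoint Smin T) (hTp : ∀ q ∈ T, q.Prime)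
    (hmin : ∀ q : ℕ, q.Prime → q ≠ p → (q ∈ Smin ↔ ¬ ρbar.IsUnramifiedAt q))
    {rb : Γ → M₂ (ResidueField 𝒪)} (hrb : RealizesRes ρbar rb)
    (G : GWData p (adRep (p := p) (rHom hrb) 1)) (w : ℕ → ℕ)
    (hw : ∀ v : Nat.Primes, (v : ℕ) ∈ T →
      w v * finrank (ZMod p) (ResidueField 𝒪) ≤ h0loc (adRep (p := p) (rHom hrb) 1) v)
    (Lp : Submodule (ZMod p) (H1loc (adRep (p := p) (rHom hrb) 1) (ExtCitation.pPrime p)))
    {wp c : ℕ} (hLp : finrank (ZMod p) Lp + wp * finrank (ZMod p) (ResidueField 𝒪) ≤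
      h0loc (adRep (p := p) (rHom hrb) 1) (ExtCitation.pPrime p) +
        (1 + c) * finrank (ZMod p) (ResidueField 𝒪)) :
    ∃ g : ℕ, ∀ (S : Finset ℕ) (n : ℕ), ∃ qv : Fin (∑ q ∈ T, w q + wp + g) → ℕ,
      Function.Injective qv ∧
      (∀ i, (qv i).Prime ∧ qv i ∉ S ∧ p ^ (n + 1) ∣ qv i - 1) ∧
      (∀ i, ∀ P : ValuationSubring (AlgebraicClosure ℚ), P.LiesOverPrime (qv i) →
        ∀ φ : AlgebraicClosure ℚ ≃ₐ[ℚ] AlgebraicClosure ℚ, P.IsFrobeniusAt φ (qv i) →
          ∃ α β : ResidueField 𝒪, α ≠ β ∧ LinearMap.charpoly (ρbar.ρ φ) =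
            (Polynomial.X - Polynomial.C α) * (Polynomial.X - Polynomial.C β)) ∧
      ∀ (𝒟 : ∀ ⦃A : Type⦄ [CommRing A] [IsLocalRing A] [Algebra 𝒪 A], GaloisRepAdic A → Prop)
        (DQ : GaloisRep.DeformationRingData 𝒪 ρbar 𝒟),
        (∀ (φ : DQ.R →ₐ[𝒪] DualNumber (ResidueField DQ.R))
          (hφ : IsLocalHom (φ : DQ.R →+* DualNumber (ResidueField DQ.R))), Function.Surjective φ →
          𝒟 (DQ.ρ.baseChangeAlong (φ : DQ.R →+* DualNumber (ResidueField DQ.R)) hφ)) →
        CondTypeT 𝒪 p Smin T (fun _ _ _ _ => True) (Finset.univ.image qv) DQ.ρ →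
        ∀ (J : Type) (y : J → maximalIdeal DQ.R) (r' : Γ → M₂ DQ.R), Realizes DQ.ρ r' →
          (∀ (l : Module.Dual (ResidueField DQ.R) (CotangentSpace DQ.R))
              (hl : l ∈ relTangent 𝒪 DQ.R), l ∈ tanKill 𝒪 y →
            ∀ v : Nat.Primes, (v : ℕ) ∈ T →
              ConstOn (fun σ => (r' σ).map (thetaHom DQ hl))
                ((padicPlace (v : ℕ)).decompositionSubgroup ℚ : Set Γ)) →
          (∀ (r : Γ → M₂ DQ.R) (T' : Finset Nat.Primes)
              (h : TanHyp (p := p) DQ (rHom hrb) r T') (l : relTangent 𝒪 DQ.R),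
              (l : Module.Dual (ResidueField DQ.R) (CotangentSpace DQ.R)) ∈ tanKill 𝒪 y →
            resv T' (adRep (p := p) (rHom hrb) 1) (ExtCitation.pPrime p) (h.cls l) ∈ Lp) →
          Module.finrank (ResidueField DQ.R) (tanKill 𝒪 y) ≤ g + c := by
  classical
  -- the finite sets of primes
  let S' : Finset Nat.Primes := Finset.subtype Nat.Prime Smin
  let T' : Finset Nat.Primes := Finset.subtype Nat.Prime T
  have hmemS' : ∀ v : Nat.Primes, v ∈ S' ↔ (v : ℕ) ∈ Smin := fun v => Finset.mem_subtype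
  have hmemT' : ∀ v : Nat.Primes, v ∈ T' ↔ (v : ℕ) ∈ T := fun v => Finset.mem_subtype
  have hsumT : ∑ v ∈ T', w v = ∑ q ∈ T, w q := by
    have h1 := Finset.sum_subtype_eq_sum_filter (s := T) (p := Nat.Prime) w
    rw [Finset.filter_true_of_mem hTp] at h1
    exact h1
  have hST' : Disjoint S' T' := by
    rw [Finset.disjoint_left]
    intro v hv hv'
    exact (Finset.disjoint_left.1 hST) ((hmemS' v).1 hv) ((hmemT' v).1 hv')
  have hpS' : ExtCitation.pPrime p ∈ S' := (hmemS' _).2 hpSmin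
  have hlev := factors_rHom hrb
  have hTWH := fun n => twHyp hp2 habs hdet hTW hrb n
  have hdet' := fun σ => det_eq_of_detIsCyclotomic (p := p) hdet hrb σ
  have hker : (rHom hrb).ker ∈ sLevels S' := by
    refine ker_mem_sLevels _ hlev fun q hq A hA σ hσ => ?_
    have hqp : (q : ℕ) ≠ p := fun h => hq ((hmemS' q).2 (h ▸ hpSmin))
    have h1 : ρbar.IsUnramifiedAt (q : ℕ) := by
      by_contra h
      exact hq ((hmemS' q).2 ((hmin q q.2 hqp).2 h))
    exact (rho_eq_one_iff hrb σ).1 (h1 A hA σ hσ)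
  have hs := smooth_adRep (p := p) hker
  have hs' := smooth_cartier (p := p) hpS' hker
  obtain ⟨R₀, hR⟩ := exists_twPrimes_sel_slack G hp2 hlev hTWH hdet'
    (S := S' ∪ T') (Finset.mem_union_left _ hpS') (smooth_mono Finset.subset_union_left hs)
    (smooth_mono Finset.subset_union_left hs')
    (L := locCondT S' T' Lp)
    (fun v hv => by
      rw [Finset.mem_union, not_or] at hv
      have hvp : v ≠ ExtCitation.pPrime p := fun h => hv.1 (h ▸ hpS')
      rw [locCondT_ne S' T' Lp hvp, if_neg hv.1, if_neg hv.2])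
    (sum_locCondW_le hpS' hST' hs (fun v => w v) (fun v hv => hw v ((hmemT' v).1 hv)) hLp)
  rw [hsumT] at hR
  haveI : FiniteDimensional (ZMod p) (ResidueField 𝒪) := Module.finite_iff_finite.2 inferInstance
  have hf0 : 0 < finrank (ZMod p) (ResidueField 𝒪) := Module.finrank_pos
  refine ⟨R₀, fun S n => ?_⟩
  set R := ∑ q ∈ T, w q + wp + R₀ with hRdef
  obtain ⟨Q, hQR, hQ, hsel⟩ := hR R (by omega) n S
  let e : Fin R ≃ Q := (Q.equivFinOfCardEq hQR).symm
  let qv : Fin R → ℕ := fun i => ((e i : Nat.Primes) : ℕ)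
  have himg : ∀ q : Nat.Primes, (q : ℕ) ∈ Finset.univ.image qv ↔ q ∈ Q := by
    intro q
    rw [Finset.mem_image]
    constructor
    · rintro ⟨i, -, hi⟩
      have : ((e i : Nat.Primes)) = q := Subtype.ext hi
      rw [← this]; exact (e i).2
    · intro hq
      exact ⟨e.symm ⟨q, hq⟩, Finset.mem_univ _, by simp [qv]⟩
  refine ⟨qv, ?_, ?_, ?_, ?_⟩
  · intro i j hij
    apply e.injective
    apply Subtype.ext
    exact Subtype.ext hij
  · intro i
    obtain ⟨h1, h2⟩ := hQ _ (e i).2
    exact ⟨h1.prime, h2, h1.dvd⟩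
  · intro i P hP φ hφ
    obtain ⟨h1, h2⟩ := hQ _ (e i).2
    exact charpoly_of_isTWPrime hrb h1 hsplit hP hφ
  · intro 𝒟 DQ h𝒟 hof J y r' hr' hkill hkillp
    obtain ⟨r, hr⟩ := exists_normReal (DQ := DQ) hrb
    obtain ⟨⟨hdetQ, -, hunrQ⟩, huniQ⟩ := hof
    have hdetne : ∀ σ, (rHom hrb σ).det ≠ 0 := fun σ => by
      rw [rHom_apply, hdet' σ]
      exact (map_ne_zero _).2 (Units.ne_zero _)
    have hTan : TanHyp (p := p) DQ (rHom hrb) r (S' ∪ T' ∪ Q) :=
      { norm := hr
        detne := hdetne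
        pmem := hp𝒪
        det := hdetQ
        unr := fun q hq => by
          rw [Finset.mem_union, Finset.mem_union, not_or, not_or] at hq
          refine hunrQ q q.2 ?_
          rw [Finset.mem_union, Finset.mem_union, not_or, not_or]
          exact ⟨⟨fun h => hq.1.1 ((hmemS' q).2 h), fun h => hq.1.2 ((hmemT' q).2 h)⟩,
            fun h => hq.2 ((himg q).1 h)⟩
        smooth := smooth_mono (Finset.subset_union_left.trans Finset.subset_union_left) hs }
    have hsel' : finrank (ZMod p) (Sel (S' ∪ T' ∪ Q) (adRep (p := p) (rHom hrb) 1)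
        (locCondT S' T' Lp)) ≤ (R₀ + c) * finrank (ZMod p) (ResidueField 𝒪) := by
      have h1 : (R + c) * finrank (ZMod p) (ResidueField 𝒪) =
          (R₀ + c) * finrank (ZMod p) (ResidueField 𝒪) +
            (∑ q ∈ T, w q + wp) * finrank (ZMod p) (ResidueField 𝒪) := by
        rw [hRdef]; ring
      rw [h1] at hsel
      omega
    exact finrank_tanKill_le hTan h𝒟
      (L := locCondT S' T' Lp) y
      (fun l hly v hv => by
        by_cases hvp : v = ExtCitation.pPrime p
        · subst hvp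
          rw [locCondT_p]
          exact hkillp r _ hTan l hly
        · have hvp' : (v : ℕ) ≠ p := fun h => hvp (Subtype.ext h)
          rw [locCondT_ne S' T' Lp hvp]
          split_ifs with hvS hvT
          · refine resv_mem_urCls hTan l hp2 hvp'
              (huniQ v ((hmemS' v).1 hvS) v.2 hvp') hlev ?_
            have h1 := (hmin v v.2 hvp').1 ((hmemS' v).1 hvS)
            unfold ResidualGaloisRep.IsUnramifiedAt at h1
            push Not at h1
            obtain ⟨A, hA, σ, hσ, hσ1⟩ := h1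
            exact ⟨A, hA, σ, hσ, fun h => hσ1 ((rho_eq_one_iff hrb σ).2 h)⟩
          · -- at `T` the class vanishes
            rw [Submodule.mem_bot]
            exact resv_eq_zero_of_constOn hTan hr' l hp2 (hkill l l.2 hly v ((hmemT' v).1 hvT))
          · trivial)
      (G.finite (S' ∪ T' ∪ Q)
        (Finset.mem_union_left _ (Finset.mem_union_left _ hpS'))
        (smooth_mono (Finset.subset_union_left.trans Finset.subset_union_left) hs))
      hsel'

end

end Fermat.Agent.TW
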