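import Mathlib
import Fermat.Agent.GenW.Core
import Fermat.Agent.TW.GenStmt

/-!
# Generators of Hecke rings with weights: the form used by the patching argument
-/

set_option autoImplicit false
set_option linter.style.haveILetI false
set_option linter.unusedSectionVars false
set_option synthInstance.maxHeartbeats 400000
set_option maxHeartbeats 1000000

namespace Fermat.Agent.TW

open Matrix IsLocalRing Module Fermat.Agent.DefRing Fermat.Agent Fermat.Agent.CFT Fermat.Agent.CFT.Loc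

local notation "M₂" => Matrix (Fin 2) (Fin 2)

section Det

variable {p : ℕ} [Fact p.Prime]
variable {𝒪 : Type} [CommRing 𝒪] [IsDomain 𝒪] [IsDiscreteValuationRing 𝒪]
  [IsAdicComplete (maximalIdeal 𝒪) 𝒪] [Finite (ResidueField 𝒪)] [Algebra (ZMod p) (ResidueField 𝒪)]
  {ρbar : ResidualGaloisRep (ResidueField 𝒪)}
  {𝒟 : ∀ ⦃A : Type⦄ [CommRing A] [IsLocalRing A] [Algebra 𝒪 A], GaloisRepAdic A → Prop}
  {DQ : GaloisRep.DeformationRingData 𝒪 ρbar 𝒟}
  {rb : Γ →* M₂ (ResidueField 𝒪)} {r r' : Γ → M₂ DQ.R}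

theorem det_snd_of_mul {k : Type} [Field k] {M : M₂ (DualNumber k)} {K : M₂ k}
    (h : msn M = K * mfs M) (hK : K.trace = 0) : M.det.snd = 0 := by
  have h00 : (M 0 0).snd = K 0 0 * (M 0 0).fst + K 0 1 * (M 1 0).fst := by
    have := congrFun (congrFun h 0) 0
    rw [mul_apply, Fin.sum_univ_two] at this
    exact this
  have h01 : (M 0 1).snd = K 0 0 * (M 0 1).fst + K 0 1 * (M 1 1).fst := by
    have := congrFun (congrFun h 0) 1
    rw [mul_apply, Fin.sum_univ_two] at this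
    exact this
  have h10 : (M 1 0).snd = K 1 0 * (M 0 0).fst + K 1 1 * (M 1 0).fst := by
    have := congrFun (congrFun h 1) 0
    rw [mul_apply, Fin.sum_univ_two] at this
    exact this
  have h11 : (M 1 1).snd = K 1 0 * (M 0 1).fst + K 1 1 * (M 1 1).fst := by
    have := congrFun (congrFun h 1) 1
    rw [mul_apply, Fin.sum_univ_two] at this
    exact this
  rw [trace_fin_two] at hK
  rw [det_fin_two]
  simp only [TrivSqZeroExt.snd_sub, TrivSqZeroExt.snd_mul, smul_eq_mul,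
      MulOpposite.smul_eq_mul_unop, MulOpposite.unop_op, h00, h01, h10, h11]
  linear_combination ((M 0 0).fst * (M 1 1).fst - (M 0 1).fst * (M 1 0).fst) * hK

/-- the determinant of a tangent vector is constant -/
theorem det_theta_snd {S : Finset Nat.Primes} (h : TanHyp (p := p) DQ rb r S)
    (hr' : Realizes DQ.ρ r') {l : Module.Dual (ResidueField DQ.R) (CotangentSpace DQ.R)}
    (hl : l ∈ relTangent 𝒪 DQ.R) (σ : Γ) : ((r' σ).map (thetaHom DQ hl)).det.snd = 0 := by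
  obtain ⟨Y, Y', h4, h5, h6⟩ := exists_transport h.norm.real hr' hl (mul_one (1 : M₂ _))
    (mul_one (1 : M₂ _))
  have h7 : Y * (r σ).map (thetaHom DQ hl) * Y' = (r' σ).map (thetaHom DQ hl) := by
    rw [h6, one_mul, mul_one]
  rw [← h7, det_mul, det_mul, mul_comm, ← mul_assoc, ← det_mul, h5, det_one, one_mul]
  refine det_snd_of_mul (K := kcoc DQ r l σ) ?_
    (kcoc_trace h.pmem h.det h.norm hl h.detne σ)
  rw [msn_thetaHom h.norm hl, mfs_thetaHom h.norm hl]

end Det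

section Kill

variable {k : Type} [Field k]

/-- the condition at a prime with local generators `φ, τ`: scalar case -/
def KSc {l p : ℕ} (L : LL.LocGen l p) (H : Γ → M₂ (DualNumber k)) : Prop :=
  (∃ c : DualNumber k, H L.φ = c • (1 : M₂ (DualNumber k))) ∧
    ∃ c : DualNumber k, H L.τ = c • (1 : M₂ (DualNumber k))

/-- the condition at a prime with local generators `φ, τ`: nonscalar case -/
def KNs {l p : ℕ} (L : LL.LocGen l p) (H : Γ → M₂ (DualNumber k)) : Prop :=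
  (H L.φ).trace.snd = 0 ∧ H L.τ = 1

theorem msn_eq_zero_of_scalar (h2 : (2 : k) ≠ 0) {M : M₂ (DualNumber k)} {c : DualNumber k}
    (h : M = c • (1 : M₂ (DualNumber k))) (hdet : M.det.snd = 0) (hu : M.det.fst ≠ 0) :
    msn M = 0 := by
  have hd : M.det = c * c := by
    rw [h, Matrix.det_smul, Matrix.det_one]; simp [sq]
  rw [hd] at hdet hu
  have h1 : c.fst ≠ 0 := by
    intro h0
    apply hu
    simp [h0]
  have h3 : c.snd = 0 := by
    have h4 : 2 * (c.fst * c.snd) = 0 := by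
      have h5 : (c * c).snd = c.fst * c.snd + c.fst * c.snd := by
        simp [TrivSqZeroExt.snd_mul]
        ring
      rw [h5] at hdet
      linear_combination hdet
    exact (mul_eq_zero.1 ((mul_eq_zero.1 h4).resolve_left h2)).resolve_left h1
  rw [h]
  ext i j
  show TrivSqZeroExt.snd ((c • (1 : M₂ (DualNumber k))) i j) = 0
  rw [Matrix.smul_apply, smul_eq_mul, Matrix.one_apply]
  split_ifs
  · rw [mul_one]; exact h3
  · rw [mul_zero]; rfl

end Kill

section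

variable {p : ℕ} [Fact p.Prime]
variable {𝒪 : Type} [CommRing 𝒪] [IsDomain 𝒪] [IsDiscreteValuationRing 𝒪]
  [IsAdicComplete (maximalIdeal 𝒪) 𝒪] [Finite (ResidueField 𝒪)]
  {ρbar : ResidualGaloisRep (ResidueField 𝒪)}

/-- the residual representation on `D` commutes with a Frobenius if it is unramified -/
theorem comm_of_locGen {l : ℕ} (hl : l.Prime) (L : LL.LocGen l p)
    {k : Type} [Field k] {rb : Γ →* M₂ k}
    (hlev : ∃ K : IntermediateField ℚ (AlgebraicClosure ℚ), FiniteDimensional ℚ K ∧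
      ∀ σ : Γ, (∀ x ∈ K, σ x = x) → rb σ = 1)
    (hur : ∀ σ ∈ L.P.inertiaSubgroupIn ℚ, rb σ = 1)
    {A : ValuationSubring (AlgebraicClosure ℚ)} (hA : A.LiesOverPrime l) :
    ∃ g : Γ, ∀ σ ∈ A.decompositionSubgroup ℚ,
      rb σ * rb (g * L.φ * g⁻¹) = rb (g * L.φ * g⁻¹) * rb σ := by
  obtain ⟨g, rfl⟩ := Frob.exists_smul_eq hl L.hP hA
  refine ⟨g, fun σ hσ => ?_⟩
  have hσ' := (Frob.mem_decompositionSubgroup_smul_iff _ _ _).1 hσ
  have hone : ∀ s, rb s = 1 → rb.toHomUnits s = 1 := fun s hs => Units.ext hs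
  have h1 := (L.gen _ rb.toHomUnits (by
      obtain ⟨K, hK, hK'⟩ := hlev
      exact ⟨K, hK, fun s hs => hone s (hK' s hs)⟩)
    (fun s hs => ⟨0, by rw [pow_zero, pow_one]; exact hone s (hur s hs)⟩)).2.2 _ hσ'
  have h2 : rb.toHomUnits (g⁻¹ * σ * g) ∈ Subgroup.centralizer {rb.toHomUnits L.φ} := by
    refine (Subgroup.closure_le _).2 ?_ h1
    rintro x (rfl | rfl)
    · rw [SetLike.mem_coe, Subgroup.mem_centralizer_singleton_iff]
    · rw [hone L.τ (hur _ L.hτ)]; exact one_mem _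
  rw [Subgroup.mem_centralizer_singleton_iff] at h2
  have h3 : rb (g⁻¹ * σ * g) * rb L.φ = rb L.φ * rb (g⁻¹ * σ * g) := by
    exact congrArg (Units.val) h2
  calc rb σ * rb (g * L.φ * g⁻¹) = rb (σ * (g * L.φ * g⁻¹)) := (map_mul _ _ _).symm
    _ = rb (g * ((g⁻¹ * σ * g) * L.φ) * g⁻¹) := by congr 1; group
    _ = rb g * (rb (g⁻¹ * σ * g) * rb L.φ) * rb g⁻¹ := by
        rw [map_mul rb (g * _), map_mul rb g, map_mul rb _ L.φ]
    _ = rb g * (rb L.φ * rb (g⁻¹ * σ * g)) * rb g⁻¹ := by rw [h3]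
    _ = rb (g * (L.φ * (g⁻¹ * σ * g)) * g⁻¹) := by
        rw [map_mul rb (g * _), map_mul rb g, map_mul rb L.φ]
    _ = rb (g * L.φ * g⁻¹ * σ) := by congr 1; group
    _ = _ := map_mul _ _ _

theorem theta_eq_zero_of_tanKill {𝒟 : ∀ ⦃A : Type⦄ [CommRing A] [IsLocalRing A] [Algebra 𝒪 A],
      GaloisRepAdic A → Prop} {DQ : GaloisRep.DeformationRingData 𝒪 ρbar 𝒟} {J : Type}
    {y : J → maximalIdeal DQ.R} {l : Module.Dual (ResidueField DQ.R) (CotangentSpace DQ.R)}
    (hl : l ∈ relTangent 𝒪 DQ.R) (hly : l ∈ tanKill 𝒪 y) (j : J) :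
    thetaHom DQ hl (y j) = 0 := by
  have h5 := (mem_tanKill.1 hly).2 j
  rw [thetaHom_apply, (residue_eq_zero_iff _).2 (y j).2, der_of_mem _ hl (y j).2]
  have h6 : l ((maximalIdeal DQ.R).toCotangent ⟨y j, (y j).2⟩) = 0 := h5
  rw [h6]
  simp

/-- constancy at the primes of `T`, for abstract deformation data -/
theorem constOn_of_kill [Algebra (ZMod p) (ResidueField 𝒪)]
    (hp2 : p ≠ 2) (hp𝒪 : (p : 𝒪) ∈ maximalIdeal 𝒪)
    {𝒟 : ∀ ⦃A : Type⦄ [CommRing A] [IsLocalRing A] [Algebra 𝒪 A], GaloisRepAdic A → Prop}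
    (DQ : GaloisRep.DeformationRingData 𝒪 ρbar 𝒟) {r : Γ → M₂ DQ.R} (hr : Realizes DQ.ρ r)
    {rb : Γ → M₂ (ResidueField 𝒪)} (hrb : RealizesRes ρbar rb)
    {r₀ : Γ → M₂ DQ.R} {T' : Finset Nat.Primes} (hTan : TanHyp (p := p) DQ (rHom hrb) r₀ T')
    {v : ℕ} (hv : v.Prime) (L' : LL.LocGen v p) (hur : ρbar.IsUnramifiedAt v)
    {l : Module.Dual (ResidueField DQ.R) (CotangentSpace DQ.R)} (hl : l ∈ relTangent 𝒪 DQ.R)
    (hk : KSc L' (fun σ => (r σ).map (thetaHom DQ hl)) ∨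
      ((∀ c : ResidueField 𝒪, ρbar.ρ L'.φ ≠ c • 1) ∧
        KNs L' (fun σ => (r σ).map (thetaHom DQ hl))))
    (A : ValuationSubring (AlgebraicClosure ℚ)) (hA : A.LiesOverPrime v) :
    ConstOn (fun σ => (r σ).map (thetaHom DQ hl)) (A.decompositionSubgroup ℚ : Set Γ) := by
  have hk2 := two_ne_res (𝒪 := 𝒪) (p := p) hp2
  obtain ⟨b, hb⟩ := id hrb
  have hθ' := isLocalHom_thetaHom DQ hl
  let θ' : DQ.R →+* DualNumber (ResidueField 𝒪) := (thetaHom DQ hl : DQ.R →+* _)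
  have hdets : ∀ σ, ((r σ).map (thetaHom DQ hl)).det.snd = 0 := fun σ =>
    det_theta_snd hTan hr hl σ
  have hI : ∀ σ ∈ L'.P.inertiaSubgroupIn ℚ, ∃ n, (mapHom hr θ').toHomUnits σ ^ p ^ n = 1 :=
    fun s hs => ⟨1, mapHom_pow hp𝒪 hr hθ' (by
      have h9 := red_scalar hr DQ.residual_isEquiv (c := 1)
        (by rw [one_smul]; exact hur L'.P L'.hP s hs)
      rw [map_one, one_smul] at h9
      exact h9)⟩
  rcases hk with ⟨⟨c1, hc1⟩, ⟨c2, hc2⟩⟩ | ⟨hns, htr, hτ⟩
  · -- scalar case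
    have hun : ∀ σ, (((r σ).map (thetaHom DQ hl)).det).fst ≠ 0 := fun σ => by
      have h8 : IsUnit ((mapHom hr θ') σ).det :=
        (Matrix.isUnit_iff_isUnit_det _).1 (((mapHom hr θ').toHomUnits σ).isUnit)
      have h9 := h8.map (TrivSqZeroExt.fstHom (ResidueField 𝒪) (ResidueField 𝒪)
        (ResidueField 𝒪))
      exact h9.ne_zero
    exact constOn_of_locGen hv L' (mapHom hr θ').toHomUnits (mapHom_factors hr hθ') hI
      (X := 1) (X' := 1) (mul_one _) (mul_one _)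
      (by
        rw [one_mul, mul_one]
        exact msn_eq_zero_of_scalar hk2 hc1 (hdets _) (hun _))
      (by
        rw [one_mul, mul_one]
        exact msn_eq_zero_of_scalar hk2 hc2 (hdets _) (hun _)) _ hA
  · -- nonscalar case
    have hnsφ : ∀ c : ResidueField 𝒪, mfs ((r L'.φ).map (thetaHom DQ hl)) ≠
        c • (1 : M₂ (ResidueField 𝒪)) := by
      intro c hc
      obtain ⟨Y, Y', h4, h5, h6⟩ := exists_transport hTan.norm.real hr hl
        (mul_one (1 : M₂ _)) (mul_one (1 : M₂ _))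
      have h7 : Y' * (r L'.φ).map (thetaHom DQ hl) * Y =
          (r₀ L'.φ).map (thetaHom DQ hl) := by
        have h8 := h6 L'.φ
        rw [one_mul, mul_one] at h8
        rw [← h8]
        calc Y' * (Y * (r₀ L'.φ).map (thetaHom DQ hl) * Y') * Y =
            (Y' * Y) * (r₀ L'.φ).map (thetaHom DQ hl) * (Y' * Y) := by noncomm_ring
          _ = _ := by rw [h5, one_mul, mul_one]
      have h8 := congrArg mfs h7
      rw [mfs_mul, mfs_mul, hc, mfs_thetaHom hTan.norm hl, mul_smul_comm, mul_one,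
        smul_mul_assoc, ← mfs_mul, h5, mfs_one] at h8
      refine hns c ((LinearMap.toMatrix b b).injective ?_)
      rw [hb, map_smul]
      refine h8.symm.trans ?_
      exact congrArg (c • ·) (LinearMap.toMatrix_one b).symm
    obtain ⟨X, X', hX, hX', hXX⟩ := exists_conj_const hnsφ htr (hdets _)
    exact constOn_of_locGen hv L' (mapHom hr θ').toHomUnits (mapHom_factors hr hθ') hI
      hX hX' hXX
      (by
        have h8 : (((mapHom hr θ').toHomUnits L'.τ : (M₂ (DualNumber (ResidueField 𝒪)))ˣ) :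
          M₂ (DualNumber (ResidueField 𝒪))) = 1 := hτ
        rw [h8, mul_one, hX, msn_one]) _ hA

/-- the general conclusion: `w l` is the weight of `l ∈ T`, `wp` the weight of `p`, `c` the number
of additional generators. `Pp` is the condition at `p` for the representation over the ring, `Kp`
the condition at `p` for the representations over the dual numbers killing `y`. -/
def GenWConcl (p : ℕ) (ρbar : ResidualGaloisRep (ResidueField 𝒪)) (Smin Tsc Tns : Finset ℕ)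
    (L : ∀ l : ℕ, l ∈ Tsc ∪ Tns → LL.LocGen l p) (wp c : ℕ)
    (Pp : LCond) (Kp : (Γ → M₂ (DualNumber (ResidueField 𝒪))) → Prop) : Prop :=
  ∃ g : ℕ, ∀ (S : Finset ℕ) (n : ℕ),
    ∃ qv : Fin (3 * Tsc.card + Tns.card + wp + g) → ℕ,
      Function.Injective qv ∧
      (∀ i, (qv i).Prime ∧ qv i ∉ S ∧ p ^ (n + 1) ∣ qv i - 1) ∧
      (∀ i, ∀ P : ValuationSubring (AlgebraicClosure ℚ), P.LiesOverPrime (qv i) →
        ∀ φ : Γ, P.IsFrobeniusAt φ (qv i) →
          ∃ α β : ResidueField 𝒪, α ≠ β ∧ LinearMap.charpoly (ρbar.ρ φ) =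
            (Polynomial.X - Polynomial.C α) * (Polynomial.X - Polynomial.C β)) ∧
      ∀ (A : Type) [CommRing A] [IsLocalRing A] [IsNoetherianRing A]
        [IsAdicComplete (maximalIdeal A) A] [Algebra 𝒪 A] [IsLocalHom (algebraMap 𝒪 A)],
        Function.Surjective (residue A ∘ algebraMap 𝒪 A) →
      ∀ ρ : GaloisRepAdic A,
        CondTypeT 𝒪 p Smin (Tsc ∪ Tns) (fun _ _ _ _ => True) (Finset.univ.image qv) ρ → Pp ρ →
        ρ.residual.IsEquiv (ρbar.baseChangeAlong (ResidueField.map (algebraMap 𝒪 A))) →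
        (∀ (B : Type) [CommRing B] [IsLocalRing B] [Algebra 𝒪 B] (f g : A →ₐ[𝒪] B)
          (hf : IsLocalHom (f : A →+* B)) (hg : IsLocalHom (g : A →+* B)),
          (ρ.baseChangeAlong (f : A →+* B) hf).IsEquiv (ρ.baseChangeAlong (g : A →+* B) hg) →
          f = g) →
      ∀ r : Γ → M₂ A, Realizes ρ r → ∀ (J : Type) (y : J → A), (∀ j, y j ∈ maximalIdeal A) →
        (∀ θ : A →ₐ[𝒪] DualNumber (ResidueField 𝒪),
          IsLocalHom (θ : A →+* DualNumber (ResidueField 𝒪)) → (∀ j, θ (y j) = 0) →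
          (∀ (l : ℕ) (hl : l ∈ Tsc), KSc (L l (Finset.mem_union_left _ hl))
            (fun σ => (r σ).map θ)) ∧
          (∀ (l : ℕ) (hl : l ∈ Tns), KNs (L l (Finset.mem_union_right _ hl))
            (fun σ => (r σ).map θ)) ∧ Kp (fun σ => (r σ).map θ)) →
        ∃ z : Fin (g + c) → A, (∀ i, z i ∈ maximalIdeal A) ∧
          (maximalIdeal A ≤ (maximalIdeal 𝒪).map (algebraMap 𝒪 A) ⊔
            Ideal.span (Set.range y ∪ Set.range z)) ∧
          (Finite J → ∃ γ : MvPowerSeries (J ⊕ Fin (g + c)) 𝒪 →ₐ[𝒪] A, Function.Surjective γ ∧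
            (∀ j, γ (MvPowerSeries.X (Sum.inl j)) = y j) ∧
            ∀ i, γ (MvPowerSeries.X (Sum.inr i)) = z i)

/-- the general theorem, for an abstract local condition at `p` -/
theorem genW_of_local [Algebra (ZMod p) (ResidueField 𝒪)]
    (hp2 : p ≠ 2) (hp𝒪 : (p : 𝒪) ∈ maximalIdeal 𝒪)
    (habs : ρbar.IsAbsolutelyIrreducible)
    (hdet : (GaloisRepAdic.ofResidualGaloisRep ρbar).DetIsCyclotomic p)
    (hsplit : ∀ σ : AlgebraicClosure ℚ ≃ₐ[ℚ] AlgebraicClosure ℚ,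
      ∃ α β : ResidueField 𝒪, LinearMap.charpoly (ρbar.ρ σ) =
        (Polynomial.X - Polynomial.C α) * (Polynomial.X - Polynomial.C β))
    (hTW : ∀ (K : Type) [Field K] [Algebra (ResidueField 𝒪) K]
      (G : Subgroup (AlgebraicClosure ℚ ≃ₐ[ℚ] AlgebraicClosure ℚ)), G.index = 2 →
      ∀ V : Submodule K (ρbar.baseChange K).V,
        (∀ σ ∈ G, ∀ x ∈ V, (ρbar.baseChange K).ρ σ x ∈ V) → V = ⊥ ∨ V = ⊤)
    (Smin Tsc Tns : Finset ℕ) (hpSmin : p ∈ Smin)
    (hmin : ∀ q : ℕ, q.Prime → q ≠ p → (q ∈ Smin ↔ ¬ ρbar.IsUnramifiedAt q))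
    (hsc : ∀ l ∈ Tsc, l.Prime ∧ l ∉ Smin ∧
      ∀ P : ValuationSubring (AlgebraicClosure ℚ), P.LiesOverPrime l →
        ∀ σ : Γ, P.IsFrobeniusAt σ l → ∃ c : ResidueField 𝒪, ρbar.ρ σ = c • 1)
    (hns : ∀ l ∈ Tns, l.Prime ∧ l ∉ Smin ∧
      ∀ P : ValuationSubring (AlgebraicClosure ℚ), P.LiesOverPrime l →
        ∀ σ : Γ, P.IsFrobeniusAt σ l → ∀ c : ResidueField 𝒪, ρbar.ρ σ ≠ c • 1)
    (L : ∀ l : ℕ, l ∈ Tsc ∪ Tns → LL.LocGen l p)
    {rb : Γ → M₂ (ResidueField 𝒪)} (hrb : RealizesRes ρbar rb)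
    (G : GWData p (adRep (p := p) (rHom hrb) 1))
    (Lp : Submodule (ZMod p) (H1loc (adRep (p := p) (rHom hrb) 1) (ExtCitation.pPrime p)))
    {wp c : ℕ} (hLp : finrank (ZMod p) Lp + wp * finrank (ZMod p) (ResidueField 𝒪) ≤
      h0loc (adRep (p := p) (rHom hrb) 1) (ExtCitation.pPrime p) +
        (1 + c) * finrank (ZMod p) (ResidueField 𝒪))
    (Pp : LCond) (Kp : (Γ → M₂ (DualNumber (ResidueField 𝒪))) → Prop)
    (hloc : ∀ (𝒟 : ∀ ⦃A : Type⦄ [CommRing A] [IsLocalRing A] [Algebra 𝒪 A],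
        GaloisRepAdic A → Prop) (DQ : GaloisRep.DeformationRingData 𝒪 ρbar 𝒟)
      (r r' : Γ → M₂ DQ.R) (T : Finset Nat.Primes) (h : TanHyp (p := p) DQ (rHom hrb) r T)
      (_ : Realizes DQ.ρ r') (l : relTangent 𝒪 DQ.R), Pp DQ.ρ →
      Kp (fun σ => (r' σ).map (thetaHom DQ l.2)) →
      resv T (adRep (p := p) (rHom hrb) 1) (ExtCitation.pPrime p) (h.cls l) ∈ Lp) :
    GenWConcl p ρbar Smin Tsc Tns L wp c Pp Kp := by
  classical
  have hk2 := two_ne_res (𝒪 := 𝒪) (p := p) hp2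
  have hp : p.Prime := Fact.out
  have hTp : ∀ q ∈ Tsc ∪ Tns, q.Prime := fun q hq => by
    rcases Finset.mem_union.1 hq with h | h
    · exact (hsc q h).1
    · exact (hns q h).1
  have hTS : ∀ q ∈ Tsc ∪ Tns, q ∉ Smin := fun q hq => by
    rcases Finset.mem_union.1 hq with h | h
    · exact (hsc q h).2.1
    · exact (hns q h).2.1
  have hST : Disjoint Smin (Tsc ∪ Tns) := by
    rw [Finset.disjoint_left]
    exact fun q hq hq' => hTS q hq' hq
  have hur : ∀ q ∈ Tsc ∪ Tns, ρbar.IsUnramifiedAt q := fun q hq => by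
    by_contra h
    have hqp : q ≠ p := fun h' => hTS q hq (h' ▸ hpSmin)
    exact hTS q hq ((hmin q (hTp q hq) hqp).2 h)
  have hdisj : Disjoint Tsc Tns := by
    rw [Finset.disjoint_left]
    intro q h1 h2
    have L' := L q (Finset.mem_union_left _ h1)
    obtain ⟨c, hc⟩ := (hsc q h1).2.2 L'.P L'.hP L'.φ L'.hφ
    exact (hns q h2).2.2 L'.P L'.hP L'.φ L'.hφ c hc
  have hscal : ∀ q ∈ Tsc, ∀ A : ValuationSubring (AlgebraicClosure ℚ), A.LiesOverPrime q →
      ∀ σ ∈ A.decompositionSubgroup ℚ, ∃ c : ResidueField 𝒪, ρbar.ρ σ = c • 1 :=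
    fun q hq A hA σ hσ => scal_of_frob (hsc q hq).1 (L q (Finset.mem_union_left _ hq))
      (hur q (Finset.mem_union_left _ hq)) (hsc q hq).2.2 A hA σ hσ
  let w : ℕ → ℕ := fun q => if q ∈ Tsc then 3 else 1
  have hsum : ∑ q ∈ Tsc ∪ Tns, w q = 3 * Tsc.card + Tns.card := by
    rw [Finset.sum_union hdisj]
    have e1 : ∑ q ∈ Tsc, w q = 3 * Tsc.card := by
      rw [Finset.sum_congr rfl (fun q hq => (if_pos hq : w q = 3)), Finset.sum_const,
        smul_eq_mul, mul_comm]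
    have e2 : ∑ q ∈ Tns, w q = Tns.card := by
      rw [Finset.sum_congr rfl (fun q hq => (if_neg (fun h =>
        (Finset.disjoint_left.1 hdisj) h hq) : w q = 1)), Finset.sum_const, smul_eq_mul, mul_one]
    rw [e1, e2]
  have hlev := factors_rHom hrb
  obtain ⟨b, hb⟩ := id hrb
  have hw : ∀ v : Nat.Primes, (v : ℕ) ∈ Tsc ∪ Tns →
      w v * finrank (ZMod p) (ResidueField 𝒪) ≤ h0loc (adRep (p := p) (rHom hrb) 1) v := by
    intro v hv
    have hmemD : ∀ τ : GalLoc (v : ℕ), localGaloisToGlobal (v : ℕ) τ ∈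
        (padicPlace (v : ℕ)).decompositionSubgroup ℚ := fun τ => by
      rw [← range_localGaloisToGlobal]; exact ⟨τ, rfl⟩
    by_cases hvs : (v : ℕ) ∈ Tsc
    · rw [show w v = 3 from if_pos hvs]
      refine h0loc_of_scalar fun τ => ?_
      obtain ⟨c, hc⟩ := hscal v hvs _ (padicPlace_liesOverPrime (v : ℕ)) _ (hmemD τ)
      refine ⟨c, ?_⟩
      rw [rHom_apply, ← hb, hc, map_smul]
      exact congrArg (c • ·) (LinearMap.toMatrix_one b)
    · rw [show w v = 1 from if_neg hvs, one_mul]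
      have hvn : (v : ℕ) ∈ Tns := (Finset.mem_union.1 hv).resolve_left hvs
      obtain ⟨g, hg⟩ := comm_of_locGen (p := p) v.2 (L v hv) (rb := rHom hrb) hlev
        (fun σ hσ => (rho_eq_one_iff hrb σ).1 (hur v hv _ (L v hv).hP σ hσ))
        (padicPlace_liesOverPrime (v : ℕ))
      refine finrank_le_h0loc hk2 (A := rHom hrb (g * (L v hv).φ * g⁻¹)) (fun c hc => ?_)
        (fun τ => hg _ (hmemD τ))
      -- the Frobenius is not scalar
      have h1 : rHom hrb (L v hv).φ = c • (1 : M₂ (ResidueField 𝒪)) := by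
        rw [_root_.map_mul, _root_.map_mul] at hc
        have e1 : rHom hrb g⁻¹ * rHom hrb g = 1 := by
          rw [← _root_.map_mul, inv_mul_cancel, _root_.map_one]
        calc rHom hrb (L v hv).φ = (rHom hrb g⁻¹ * rHom hrb g) * rHom hrb (L v hv).φ *
              (rHom hrb g⁻¹ * rHom hrb g) := by rw [e1, one_mul, mul_one]
          _ = rHom hrb g⁻¹ * (rHom hrb g * rHom hrb (L v hv).φ * rHom hrb g⁻¹) *
              rHom hrb g := by noncomm_ring
          _ = c • (1 : M₂ (ResidueField 𝒪)) := by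
              rw [hc, mul_smul_comm, smul_mul_assoc, mul_one, e1]
      refine (hns v hvn).2.2 _ (L v hv).hP _ (L v hv).hφ c ((LinearMap.toMatrix b b).injective ?_)
      rw [hb, map_smul]
      refine h1.trans ?_
      exact congrArg (c • ·) (LinearMap.toMatrix_one b).symm
  obtain ⟨g, hg⟩ := main_of_local_W hp2 hp𝒪 habs hdet hsplit hTW Smin (Tsc ∪ Tns) hpSmin hST
    hTp hmin hrb G w hw Lp hLp
  rw [hsum] at hg
  refine ⟨g, fun S n => ?_⟩
  obtain ⟨qv, h1, h2, h3, h4⟩ := hg S n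
  refine ⟨qv, h1, h2, h3, ?_⟩
  intro A _ _ _ _ _ _ hres ρ hof hPp hρ hu r hr J y hy hk
  -- abstract form
  have key : ∀ (𝒟 : ∀ ⦃A : Type⦄ [CommRing A] [IsLocalRing A] [Algebra 𝒪 A],
        GaloisRepAdic A → Prop) (DQ : GaloisRep.DeformationRingData 𝒪 ρbar 𝒟),
      (∀ (φ : DQ.R →ₐ[𝒪] DualNumber (ResidueField DQ.R))
        (hφ : IsLocalHom (φ : DQ.R →+* DualNumber (ResidueField DQ.R))), Function.Surjective φ →
        𝒟 (DQ.ρ.baseChangeAlong (φ : DQ.R →+* DualNumber (ResidueField DQ.R)) hφ)) →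
      CondTypeT 𝒪 p Smin (Tsc ∪ Tns) (fun _ _ _ _ => True) (Finset.univ.image qv) DQ.ρ →
      Pp DQ.ρ → ∀ (r : Γ → M₂ DQ.R), Realizes DQ.ρ r → ∀ (y : J → maximalIdeal DQ.R),
        (∀ θ : DQ.R →ₐ[𝒪] DualNumber (ResidueField 𝒪),
          IsLocalHom (θ : DQ.R →+* DualNumber (ResidueField 𝒪)) → (∀ j, θ (y j) = 0) →
          (∀ (l : ℕ) (hl : l ∈ Tsc), KSc (L l (Finset.mem_union_left _ hl))
            (fun σ => (r σ).map θ)) ∧
          (∀ (l : ℕ) (hl : l ∈ Tns), KNs (L l (Finset.mem_union_right _ hl))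
            (fun σ => (r σ).map θ)) ∧ Kp (fun σ => (r σ).map θ)) →
        finrank (ResidueField DQ.R) (tanKill 𝒪 y) ≤ g + c := by
    intro 𝒟 DQ h𝒟 hof hPp r hr y hk
    refine h4 _ DQ h𝒟 hof J y r hr ?_ ?_
    · intro l hl hly v hv
      obtain ⟨hk1, hk2', -⟩ := hk (thetaHom DQ hl) (isLocalHom_thetaHom DQ hl)
        (theta_eq_zero_of_tanKill hl hly)
      obtain ⟨r₀, hr₀⟩ := exists_normReal (DQ := DQ) hrb
      have hdetne : ∀ σ, (rHom hrb σ).det ≠ 0 := fun σ => by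
        rw [rHom_apply, det_eq_of_detIsCyclotomic (p := p) hdet hrb σ]
        exact (map_ne_zero _).2 (Units.ne_zero _)
      have hTan : TanHyp (p := p) DQ (rHom hrb) r₀
          (Finset.subtype Nat.Prime (Smin ∪ (Tsc ∪ Tns) ∪ Finset.univ.image qv)) :=
        { norm := hr₀
          detne := hdetne
          pmem := hp𝒪
          det := hof.1.1
          unr := fun q hq => hof.1.2.2 q q.2 (fun h => hq (Finset.mem_subtype.2 h))
          smooth := smooth_adRep (ker_mem_sLevels _ hlev fun q hq A hA σ hσ => by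
            have hq' : (q : ℕ) ∉ Smin := fun h => hq (Finset.mem_subtype.2
              (Finset.mem_union_left _ (Finset.mem_union_left _ h)))
            have hqp : (q : ℕ) ≠ p := fun h => hq' (h ▸ hpSmin)
            have h1 : ρbar.IsUnramifiedAt (q : ℕ) := by
              by_contra h
              exact hq' ((hmin q q.2 hqp).2 h)
            exact (rho_eq_one_iff hrb σ).1 (h1 A hA σ hσ)) }
      refine constOn_of_kill hp2 hp𝒪 DQ hr hrb hTan v.2 (L v hv) (hur v hv) hl ?_ _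
        (padicPlace_liesOverPrime (v : ℕ))
      by_cases hvs : (v : ℕ) ∈ Tsc
      · exact Or.inl (hk1 v hvs)
      · have hvn : (v : ℕ) ∈ Tns := (Finset.mem_union.1 hv).resolve_left hvs
        exact Or.inr ⟨(hns v hvn).2.2 _ (L v hv).hP _ (L v hv).hφ, hk2' v hvn⟩
    · intro r₁ T' h l hly
      obtain ⟨-, -, hkp⟩ := hk (thetaHom DQ l.2) (isLocalHom_thetaHom DQ l.2)
        (theta_eq_zero_of_tanKill l.2 hly)
      exact hloc _ DQ r₁ r T' h hr l hPp hkp
  have hfin := key _ (dataOf A habs hres ρ hρ hu)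
    (fun φ hφ _ => ⟨φ, hφ, ⟨GaloisRepAdic.Equiv.refl _⟩⟩) hof hPp r hr
    (fun j => ⟨y j, hy j⟩) hk
  have hfin' : finrank (ResidueField A) (tanKill 𝒪 (fun j => (⟨y j, hy j⟩ : maximalIdeal A))) ≤
    g + c := hfin
  obtain ⟨z, hz⟩ := exists_generators_of_finrank_le' (𝒪 := 𝒪) _ hfin'
  refine ⟨fun i => z i, fun i => (z i).2, hz.trans (sup_le_sup le_rfl (Ideal.span_mono ?_)), ?_⟩
  · rintro _ ⟨j | i, rfl⟩
    · exact Or.inl ⟨j, rfl⟩
    · exact Or.inr ⟨i, rfl⟩
  · intro hJ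
    obtain ⟨γ, hγ, hγX⟩ := exists_surjective_of_generators' hres
      (fun i => ((Sum.elim (fun j => (⟨y j, hy j⟩ : maximalIdeal A)) z i : maximalIdeal A) : A))
      (fun i => (Sum.elim _ z i).2) (fun a ha => Submodule.mem_sup_left (hz ha))
    exact ⟨γ, hγ, fun j => hγX (Sum.inl j), fun i => hγX (Sum.inr i)⟩

end

end Fermat.Agent.TW
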