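import Mathlib
import Fermat.Agent.GenW.Stmt
import Fermat.Agent.CFT.GWFinal
import Fermat.Agent.TW.FlatEx
import Fermat.Agent.TW.LocalPeu
import Fermat.Agent.TW.Final

/-!
# Generators of Hecke rings with weights: flat, strict ordinary, no condition at `p`
-/

set_option autoImplicit false
set_option linter.style.haveILetI false
set_option linter.unusedSectionVars false
set_option synthInstance.maxHeartbeats 400000
set_option maxHeartbeats 1000000

namespace Fermat.Agent.TW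

open Matrix IsLocalRing Module Fermat.Agent.DefRing Fermat.Agent Fermat.Agent.CFT Fermat.Agent.CFT.Loc

local notation "M₂" => Matrix (Fin 2) (Fin 2)

/-- the hypotheses on the residual representation and on the sets of primes -/
structure GenWHyp (p : ℕ) [Fact p.Prime] {𝒪 : Type} [CommRing 𝒪] [IsDomain 𝒪]
    [IsDiscreteValuationRing 𝒪] [IsAdicComplete (maximalIdeal 𝒪) 𝒪] [Finite (ResidueField 𝒪)]
    (ρbar : ResidualGaloisRep (ResidueField 𝒪)) (Smin Tsc Tns : Finset ℕ) : Prop where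
  hp2 : p ≠ 2
  hp𝒪 : (p : 𝒪) ∈ maximalIdeal 𝒪
  habs : ρbar.IsAbsolutelyIrreducible
  hdet : (GaloisRepAdic.ofResidualGaloisRep ρbar).DetIsCyclotomic p
  hsplit : ∀ σ : AlgebraicClosure ℚ ≃ₐ[ℚ] AlgebraicClosure ℚ,
      ∃ α β : ResidueField 𝒪, LinearMap.charpoly (ρbar.ρ σ) =
        (Polynomial.X - Polynomial.C α) * (Polynomial.X - Polynomial.C β)
  hTW : ∀ (K : Type) [Field K] [Algebra (ResidueField 𝒪) K]
      (G : Subgroup (AlgebraicClosure ℚ ≃ₐ[ℚ] AlgebraicClosure ℚ)), G.index = 2 →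
      ∀ V : Submodule K (ρbar.baseChange K).V,
        (∀ σ ∈ G, ∀ x ∈ V, (ρbar.baseChange K).ρ σ x ∈ V) → V = ⊥ ∨ V = ⊤
  hpSmin : p ∈ Smin
  hmin : ∀ q : ℕ, q.Prime → q ≠ p → (q ∈ Smin ↔ ¬ ρbar.IsUnramifiedAt q)
  hsc : ∀ l ∈ Tsc, l.Prime ∧ l ∉ Smin ∧
      ∀ P : ValuationSubring (AlgebraicClosure ℚ), P.LiesOverPrime l →
        ∀ σ : Γ, P.IsFrobeniusAt σ l → ∃ c : ResidueField 𝒪, ρbar.ρ σ = c • 1
  hns : ∀ l ∈ Tns, l.Prime ∧ l ∉ Smin ∧
      ∀ P : ValuationSubring (AlgebraicClosure ℚ), P.LiesOverPrime l →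
        ∀ σ : Γ, P.IsFrobeniusAt σ l → ∀ c : ResidueField 𝒪, ρbar.ρ σ ≠ c • 1

section

variable {p : ℕ} [Fact p.Prime]
variable {𝒪 : Type} [CommRing 𝒪] [IsDomain 𝒪] [IsDiscreteValuationRing 𝒪]
  [IsAdicComplete (maximalIdeal 𝒪) 𝒪] [Finite (ResidueField 𝒪)]
  {ρbar : ResidualGaloisRep (ResidueField 𝒪)} {Smin Tsc Tns : Finset ℕ}

theorem GenWHyp.charP (H : GenWHyp p ρbar Smin Tsc Tns) : CharP (ResidueField 𝒪) p := by
  have hpk : (p : ResidueField 𝒪) = 0 := by
    rw [← map_natCast (residue 𝒪), residue_eq_zero_iff]; exact H.hp𝒪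
  exact (CharP.charP_iff_prime_eq_zero Fact.out).2 hpk

theorem GenWHyp.smooth (H : GenWHyp p ρbar Smin Tsc Tns) [Algebra (ZMod p) (ResidueField 𝒪)]
    {rb : Γ → M₂ (ResidueField 𝒪)} (hrb : RealizesRes ρbar rb) :
    Smooth (sLevels (Finset.subtype Nat.Prime Smin)) (adRep (p := p) (rHom hrb) 1) :=
  smooth_adRep (ker_mem_sLevels _ (factors_rHom hrb) fun q hq A hA σ hσ => by
    have hqp : (q : ℕ) ≠ p := fun h => hq (Finset.mem_subtype.2 (h ▸ H.hpSmin))
    have h1 : ρbar.IsUnramifiedAt (q : ℕ) := by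
      by_contra h
      exact hq (Finset.mem_subtype.2 ((H.hmin q q.2 hqp).2 h))
    exact (rho_eq_one_iff hrb σ).1 (h1 A hA σ hσ))

/-- no condition at `p`: a constant number `c` of additional generators -/
theorem genW_none' (H : GenWHyp p ρbar Smin Tsc Tns)
    (L : ∀ l : ℕ, l ∈ Tsc ∪ Tns → LL.LocGen l p) (wp : ℕ) :
    ∃ c : ℕ, GenWConcl p ρbar Smin Tsc Tns L wp c (fun _ _ _ _ => True) (fun _ => True) := by
  haveI := H.charP
  letI : Algebra (ZMod p) (ResidueField 𝒪) := ZMod.algebra _ p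
  obtain ⟨rb, hrb⟩ := exists_realizesRes ρbar
  obtain ⟨G⟩ : Nonempty (GWData p (adRep (p := p) (rHom hrb) 1)) :=
    gwExists p H.hp2 _ ⟨_, H.smooth hrb⟩
  haveI : FiniteDimensional (ZMod p) (ResidueField 𝒪) := Module.finite_iff_finite.2 inferInstance
  have hf0 : 0 < finrank (ZMod p) (ResidueField 𝒪) := Module.finrank_pos
  refine ⟨finrank (ZMod p) (⊤ : Submodule (ZMod p) (H1loc (adRep (p := p) (rHom hrb) 1)
    (ExtCitation.pPrime p))) + wp, ?_⟩
  refine genW_of_local H.hp2 H.hp𝒪 H.habs H.hdet H.hsplit H.hTW Smin Tsc Tns H.hpSmin H.hmin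
    H.hsc H.hns L hrb G ⊤ ?_ _ _ (fun _ _ _ _ _ _ _ _ _ _ => trivial)
  nlinarith [Nat.zero_le (h0loc (adRep (p := p) (rHom hrb) 1) (ExtCitation.pPrime p))]

/-- no condition at `p`: a constant number `c` of additional generators -/
theorem genW_none (H : GenWHyp p ρbar Smin Tsc Tns)
    (L : ∀ l : ℕ, l ∈ Tsc ∪ Tns → LL.LocGen l p) :
    ∃ c : ℕ, GenWConcl p ρbar Smin Tsc Tns L 0 c (fun _ _ _ _ => True) (fun _ => True) :=
  genW_none' H L 0

/-- the theorem in a situation in which the condition at `p` cannot be satisfied -/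
theorem genW_vacuous (H : GenWHyp p ρbar Smin Tsc Tns)
    (L : ∀ l : ℕ, l ∈ Tsc ∪ Tns → LL.LocGen l p) (wp c : ℕ) {Pp : LCond}
    (Kp : (Γ → M₂ (DualNumber (ResidueField 𝒪))) → Prop)
    (hP : ∀ (𝒟 : ∀ ⦃A : Type⦄ [CommRing A] [IsLocalRing A] [Algebra 𝒪 A],
        GaloisRepAdic A → Prop) (DQ : GaloisRep.DeformationRingData 𝒪 ρbar 𝒟), ¬ Pp DQ.ρ) :
    GenWConcl p ρbar Smin Tsc Tns L wp c Pp Kp := by
  obtain ⟨c', g, hg⟩ := genW_none' H L wp
  refine ⟨g, fun S n => ?_⟩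
  obtain ⟨qv, h1, h2, h3, -⟩ := hg S n
  refine ⟨qv, h1, h2, h3, ?_⟩
  intro A _ _ _ _ _ _ hres ρ hof hPp hρ hu r hr J y hy hk
  exact absurd hPp (hP _ (dataOf A H.habs hres ρ hρ hu))

/-- flat case -/
theorem genW_flat (H : GenWHyp p ρbar Smin Tsc Tns)
    (L : ∀ l : ℕ, l ∈ Tsc ∪ Tns → LL.LocGen l p) :
    GenWConcl p ρbar Smin Tsc Tns L 0 0 (fun _ _ _ ρ => ρ.IsFlatAt p) (fun _ => True) := by
  haveI := H.charP
  letI : Algebra (ZMod p) (ResidueField 𝒪) := ZMod.algebra _ p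
  obtain ⟨rb, hrb⟩ := exists_realizesRes ρbar
  obtain ⟨G⟩ : Nonempty (GWData p (adRep (p := p) (rHom hrb) 1)) :=
    gwExists p H.hp2 _ ⟨_, H.smooth hrb⟩
  obtain ⟨Lp, hLdim, hL⟩ := flatExists p H.hp2 (rHom hrb) (factors_rHom hrb)
      (fun σ => det_eq_of_detIsCyclotomic (p := p) H.hdet hrb σ) (fun σ => by
        obtain ⟨α, β, h⟩ := H.hsplit σ
        refine ⟨α, β, ?_⟩
        obtain ⟨b, hb⟩ := id hrb
        rw [rHom_apply, ← hb, LinearMap.charpoly_toMatrix, h])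
  refine genW_of_local H.hp2 H.hp𝒪 H.habs H.hdet H.hsplit H.hTW Smin Tsc Tns H.hpSmin H.hmin
    H.hsc H.hns L hrb G Lp (wp := 0) (c := 0) ?_ _ _
    (fun _ _ _ _ _ h _ l hP _ => resv_mem_flat h l hP hL)
  rw [zero_mul, add_zero, add_zero, one_mul]
  exact hLdim

/-- strict ordinary case, `ρbar` having an ordinary realisation -/
theorem genW_ord_aux (H : GenWHyp p ρbar Smin Tsc Tns)
    (L : ∀ l : ℕ, l ∈ Tsc ∪ Tns → LL.LocGen l p)
    (hord : ∃ rb, RealizesRes ρbar rb ∧ OrdMat p (padicPlace p) rb) :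
    GenWConcl p ρbar Smin Tsc Tns L 0 0 (fun _ _ _ ρ => ρ.IsStrictOrdinaryAt p)
      (fun _ => True) := by
  haveI := H.charP
  letI : Algebra (ZMod p) (ResidueField 𝒪) := ZMod.algebra _ p
  obtain ⟨rb, hrb, hrbord⟩ := hord
  obtain ⟨G⟩ : Nonempty (GWData p (adRep (p := p) (rHom hrb) 1)) :=
    gwExists p H.hp2 _ ⟨_, H.smooth hrb⟩
  refine genW_of_local H.hp2 H.hp𝒪 H.habs H.hdet H.hsplit H.hTW Smin Tsc Tns H.hpSmin H.hmin
    H.hsc H.hns L hrb G
    (ordCls (p := p) (locRep (adRep (p := p) (rHom hrb) 1) (ExtCitation.pPrime p)))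
    (wp := 0) (c := 0) ?_ _ _
    (fun _ _ _ _ _ h _ l hP _ => resv_mem_ordCls h l H.hp2 hP hrbord)
  rw [zero_mul, add_zero, add_zero, one_mul]
  exact finrank_ordCls_locRep_le H.hp2 hrb hrbord (H.smooth hrb)

/-- strict ordinary case -/
theorem genW_ord (H : GenWHyp p ρbar Smin Tsc Tns)
    (L : ∀ l : ℕ, l ∈ Tsc ∪ Tns → LL.LocGen l p) :
    GenWConcl p ρbar Smin Tsc Tns L 0 0 (fun _ _ _ ρ => ρ.IsStrictOrdinaryAt p)
      (fun _ => True) := by
  by_cases hord : ∃ rb, RealizesRes ρbar rb ∧ OrdMat p (padicPlace p) rb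
  · exact genW_ord_aux H L hord
  · exact genW_vacuous H L 0 0 _ fun _ DQ h => hord (exists_ordMat_res DQ h)

/-- the tangent vector killed by the coordinates at `p` is peu ramifie -/
theorem resv_mem_peuCls [Algebra (ZMod p) (ResidueField 𝒪)]
    {𝒟 : ∀ ⦃A : Type⦄ [CommRing A] [IsLocalRing A] [Algebra 𝒪 A], GaloisRepAdic A → Prop}
    {DQ : GaloisRep.DeformationRingData 𝒪 ρbar 𝒟}
    {rb : Γ →* M₂ (ResidueField 𝒪)} {r r' : Γ → M₂ DQ.R} {S : Finset Nat.Primes}
    (h : TanHyp (p := p) DQ rb r S) (hr' : Realizes DQ.ρ r') (l : relTangent 𝒪 DQ.R)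
    (hp2 : p ≠ 2) (hordb : OrdMat p (padicPlace p) rb) {s₁ : GalLoc p}
    (hs₁ : rb (localGaloisToGlobal p s₁) = 1)
    (ho : OrdOn (fun σ => (r' σ).map (thetaHom DQ l.2)) (padicPlace p))
    (h1 : (r' (localGaloisToGlobal p s₁)).map (thetaHom DQ l.2) = 1) :
    resv S (adRep (p := p) rb 1) (ExtCitation.pPrime p) (h.cls l) ∈
      peuCls (p := p) (locRep (adRep (p := p) rb 1) (ExtCitation.pPrime p)) s₁ := by
  obtain ⟨m, hm⟩ := exists_coboundary_of_ordOn h hr' l hp2 hordb ho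
  obtain ⟨m', hm'⟩ := exists_traceless (two_ne_res (p := p) hp2) rb
    (fun τ : GalLoc p => localGaloisToGlobal p τ) m
  have hmemD : ∀ τ : GalLoc p, localGaloisToGlobal p τ ∈
      (padicPlace p).decompositionSubgroup ℚ := fun τ => by
    rw [← range_localGaloisToGlobal]; exact ⟨τ, rfl⟩
  obtain ⟨hZ, hres⟩ := resv_mk S (adRep (p := p) rb 1) (ExtCitation.pPrime p) (h.coc l)
  have e1 : resv S (adRep (p := p) rb 1) (ExtCitation.pPrime p) (h.cls l) = _ := hres
  rw [e1]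
  have hact : ∀ g : GalLoc p, (((locRep (adRep (p := p) rb 1) (ExtCitation.pPrime p)) g m' -
      m' : sl (ResidueField 𝒪)) : M₂ (ResidueField 𝒪)) =
      rb (localGaloisToGlobal p g) * (m' : M₂ (ResidueField 𝒪)) *
        rb (localGaloisToGlobal p g)⁻¹ - (m' : M₂ (ResidueField 𝒪)) := by
    intro g
    rw [AddSubgroupClass.coe_sub]
    exact congrArg (· - (m' : M₂ (ResidueField 𝒪))) (adRep_one_apply rb _ m')
  have hk1 : kcoc DQ r l (localGaloisToGlobal p s₁) = 0 := by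
    obtain ⟨Y, Y', h4, h5, h6⟩ := exists_transport h.norm.real hr' l.2 (mul_one (1 : M₂ _))
      (mul_one (1 : M₂ _))
    have h7 := h6 (localGaloisToGlobal p s₁)
    rw [one_mul, mul_one, h1] at h7
    have h8 : (r (localGaloisToGlobal p s₁)).map (thetaHom DQ l.2) = 1 := by
      calc (r (localGaloisToGlobal p s₁)).map (thetaHom DQ l.2)
          = (Y' * Y) * (r (localGaloisToGlobal p s₁)).map (thetaHom DQ l.2) * (Y' * Y) := by
            rw [h5, one_mul, mul_one]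
        _ = Y' * (Y * (r (localGaloisToGlobal p s₁)).map (thetaHom DQ l.2) * Y') * Y := by
            noncomm_ring
        _ = 1 := by rw [h7, mul_one, h5]
    have h9 := congrArg msn h8
    rw [msn_thetaHom h.norm l.2, hs₁, mul_one, msn_one] at h9
    exact h9
  refine mk_mem_peuCls m' (smooth_locRep h.smooth (ExtCitation.pPrime p)) (fun g => ?_) ?_
  · have h5 : ((((h.coc l).1 (localGaloisToGlobal p g)) -
        (locRep (adRep (p := p) rb 1) (ExtCitation.pPrime p) g m' - m') : sl (ResidueField 𝒪)) :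
        M₂ (ResidueField 𝒪)) = kcoc DQ r l (localGaloisToGlobal p g) -
          (rb (localGaloisToGlobal p g) * m * rb (localGaloisToGlobal p g)⁻¹ - m) := by
      rw [← hm' g, AddSubgroupClass.coe_sub, AddSubgroupClass.coe_sub]
      exact congrArg (fun x => kcoc DQ r l (localGaloisToGlobal p g) -
        (x - (m' : M₂ (ResidueField 𝒪)))) (adRep_one_apply rb _ m')
    show ((((h.coc l).1 (localGaloisToGlobal p g)) -
        (locRep (adRep (p := p) rb 1) (ExtCitation.pPrime p) g m' - m') : sl (ResidueField 𝒪)) :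
        M₂ (ResidueField 𝒪)) 0 0 = 0 ∧ ((((h.coc l).1 (localGaloisToGlobal p g)) -
        (locRep (adRep (p := p) rb 1) (ExtCitation.pPrime p) g m' - m') : sl (ResidueField 𝒪)) :
        M₂ (ResidueField 𝒪)) 1 0 = 0
    rw [h5]
    exact hm _ (hmemD g)
  · apply Subtype.ext
    show kcoc DQ r l (localGaloisToGlobal p s₁) = _
    rw [hk1, AddSubgroupClass.coe_sub]
    have h2 := adRep_one_apply (p := p) rb (localGaloisToGlobal p s₁) m'
    have hinv : rb (localGaloisToGlobal p s₁)⁻¹ = 1 := by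
      have h3 : rb (localGaloisToGlobal p s₁) * rb (localGaloisToGlobal p s₁)⁻¹ = 1 := by
        rw [← _root_.map_mul, mul_inv_cancel, _root_.map_one]
      rw [hs₁, one_mul] at h3
      exact h3
    rw [hs₁, hinv, one_mul, mul_one] at h2
    exact (sub_eq_zero.2 h2).symm

/-- the dimension of the space of peu ramifie classes -/
theorem finrank_peuCls_locRep_le (hp2 : p ≠ 2) [Algebra (ZMod p) (ResidueField 𝒪)]
    {rb : Γ → M₂ (ResidueField 𝒪)} (hrb : RealizesRes ρbar rb)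
    (hrbord : OrdMat p (padicPlace p) rb) {S : Finset Nat.Primes}
    (hs : Smooth (sLevels S) (adRep (p := p) (rHom hrb) 1)) {s₁ : GalLoc p}
    (h1 : ρbar.ρ (localGaloisToGlobal p s₁) = 1) {w : PadicAlgCl p}
    (hw : w ^ p = (p : PadicAlgCl p)) (hsw : s₁ w ≠ w) :
    finrank (ZMod p) (peuCls (p := p) (locRep (adRep (p := p) (rHom hrb) 1)
      (ExtCitation.pPrime p)) s₁) ≤
      h0loc (adRep (p := p) (rHom hrb) 1) (ExtCitation.pPrime p) := by
  haveI := charP_res (𝒪 := 𝒪) p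
  have hpk : (p : ResidueField 𝒪) = 0 := CharP.cast_eq_zero _ _
  have hmemD : ∀ τ : GalLoc p, localGaloisToGlobal p τ ∈
      (padicPlace p).decompositionSubgroup ℚ := fun τ => by
    rw [← range_localGaloisToGlobal]; exact ⟨τ, rfl⟩
  refine finrank_peuCls_le (p := p) (k := ResidueField 𝒪)
    (s := (rHom hrb).comp (localGaloisToGlobal p)) ?_ ?_ ?_ hp2
    (smooth_locRep hs (ExtCitation.pPrime p)) ?_ hw hsw _ ?_
  · intro g m
    have h1 := adRep_one_apply (p := p) (rHom hrb) (localGaloisToGlobal p g) m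
    show ((adRep (p := p) (rHom hrb) 1 (localGaloisToGlobal p g) m : sl (ResidueField 𝒪)) :
      M₂ (ResidueField 𝒪)) * rHom hrb (localGaloisToGlobal p g) =
      rHom hrb (localGaloisToGlobal p g) * m
    rw [h1, mul_assoc, ← _root_.map_mul, inv_mul_cancel, _root_.map_one, mul_one]
  · intro g
    exact hrbord.dec _ (hmemD g)
  · intro g
    have h1 := hrbord.cyc _ (hmemD g) 1 ((locχ p g : ZMod p).val) (fun μ hμ => by
      rw [pow_one] at hμ
      exact CycChar.apply_eq_pow_cycloChar p _ hμ)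
    rw [pow_one, hpk, Ideal.span_singleton_eq_bot.2 rfl, Ideal.mem_bot, sub_eq_zero] at h1
    show rb (localGaloisToGlobal p g) 0 0 = (locχ p g : ZMod p) •
      rb (localGaloisToGlobal p g) 1 1
    rw [h1, Algebra.smul_def]
    congr 1
    rw [← map_natCast (algebraMap (ZMod p) (ResidueField 𝒪)), ZMod.natCast_zmod_val]
  · exact (rho_eq_one_iff hrb _).1 h1
  · intro x
    constructor
    · intro h g
      exact h _ ⟨g, rfl⟩
    · rintro h _ ⟨g, rfl⟩
      exact h g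

/-- **the peu ramifie case**: `p` is an additional block of weight `1` -/
theorem genW_peu (H : GenWHyp p ρbar Smin Tsc Tns)
    (L : ∀ l : ℕ, l ∈ Tsc ∪ Tns → LL.LocGen l p)
    (hord : ∃ rb, RealizesRes ρbar rb ∧ OrdMat p (padicPlace p) rb) {s₁ : GalLoc p}
    (hs₁ : ρbar.ρ (localGaloisToGlobal p s₁) = 1) {w : PadicAlgCl p}
    (hw : w ^ p = (p : PadicAlgCl p)) (hsw : s₁ w ≠ w) :
    GenWConcl p ρbar Smin Tsc Tns L 1 0 (fun _ _ _ _ => True)
      (fun H => OrdOn H (padicPlace p) ∧ H (localGaloisToGlobal p s₁) = 1) := by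
  haveI := H.charP
  letI : Algebra (ZMod p) (ResidueField 𝒪) := ZMod.algebra _ p
  obtain ⟨rb, hrb, hrbord⟩ := hord
  obtain ⟨G⟩ : Nonempty (GWData p (adRep (p := p) (rHom hrb) 1)) :=
    gwExists p H.hp2 _ ⟨_, H.smooth hrb⟩
  refine genW_of_local H.hp2 H.hp𝒪 H.habs H.hdet H.hsplit H.hTW Smin Tsc Tns H.hpSmin H.hmin
    H.hsc H.hns L hrb G
    (peuCls (p := p) (locRep (adRep (p := p) (rHom hrb) 1) (ExtCitation.pPrime p)) s₁)
    (wp := 1) (c := 0) ?_ _ _
    (fun _ _ _ _ _ h hr' l _ hK => resv_mem_peuCls h hr' l H.hp2 hrbord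
      ((rho_eq_one_iff hrb _).1 hs₁) hK.1 hK.2)
  rw [one_mul, add_zero, one_mul]
  exact Nat.add_le_add_right (finrank_peuCls_locRep_le H.hp2 hrb hrbord (H.smooth hrb) hs₁ hw hsw) _

/-- a strictly ordinary point gives an ordinary residual realisation -/
theorem exists_ordMat_of_point {ρW : GaloisRepAdic 𝒪} (hρ : ρW.residual.IsEquiv ρbar)
    (h : ρW.IsStrictOrdinaryAt p) :
    ∃ rb, RealizesRes ρbar rb ∧ OrdMat p (padicPlace p) rb := by
  obtain ⟨r', hr', hr'ord⟩ := ((isStrictOrdinaryAt_iff ρW p).1 h).2 (padicPlace p)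
    (padicPlace_liesOverPrime p)
  exact ⟨_, hr'.residual.of_isEquiv hρ, hr'ord.map (residue 𝒪)⟩

end

end Fermat.Agent.TW
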